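/-
Programme MZ (S15), chapter HECKE (helper5): **the commutative Hecke ring acting on `J₀(N)`**.

* `heckeOperatorBar_comm` : `T_ℓ T_r = T_r T_ℓ` on all of `JZero N` for primes `ℓ, r ∤ N` — NO hypothesis
  (from the generic push–pull identities of `MP/HECKE/HeckeSq6`: `T_r = α_* β^*`, `T_ℓ` commutes with
  `α_*` and `β^*`);
* `heckeSub N : Subalgebra ℤ (Module.End ℤ (JZero N))`, `R N := ↥(heckeSub N)`, `CommRing (R N)`,
  `Module (R N) (JZero N)`, `Tq`, `Tq_smul`, `natCast_smul`, `intCast_smul`;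
* `SMulCommClass GQ (R N) (JZero N)`, `smul_mem_fixed`, `smul_torsion`;
* `R_induction`, `stable_of_hecke` : a subgroup stable under all `T_q` (`q ∤ N`) is `R`-stable.
-/
import Mathlib
import Fermat.Agent.MP.HECKE.HeckeSq6
import Fermat.Agent.ES.HECKE.HeckeGalois12

set_option autoImplicit false
set_option linter.unusedSectionVars false
set_option linter.style.longLine false
set_option linter.style.haveILetI false

namespace Fermat.Agent.MZ.HECKE.Ring5

open AlgebraicCurve ModularCurve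
open Fermat.Agent.X0
open Fermat.Agent.MP.HECKE.HeckeSq6 Fermat.Agent.MP.HECKE.Squares6
open Fermat.Agent.ES.HECKE.HeckeGalois12

noncomputable section

/-! ### commutativity of the Hecke operators at primes not dividing the level -/

section Comm

variable {N : ℕ} [NeZero N]

theorem hecke_comm_apply {ℓ r : ℕ} (hℓ : ℓ.Prime) (hr : r.Prime) (hℓN : ¬ ℓ ∣ N) (hrN : ¬ r ∣ N)
    (hne : ℓ ≠ r) (x : JZero N) :
    heckeOperatorBar N (⟨ℓ, hℓ⟩ : Nat.Primes) (heckeOperatorBar N (⟨r, hr⟩ : Nat.Primes) x) =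
      heckeOperatorBar N (⟨r, hr⟩ : Nat.Primes) (heckeOperatorBar N (⟨ℓ, hℓ⟩ : Nat.Primes) x) := by
  haveI : NeZero ℓ := ⟨hℓ.ne_zero⟩
  haveI : NeZero r := ⟨hr.ne_zero⟩
  haveI : NeZero (N * r) := ⟨Nat.mul_ne_zero (NeZero.ne N) hr.ne_zero⟩
  have hdvd : N ∣ N * r := Dvd.intro _ rfl
  have hφ := isAlpha_levelIncl (N₁ := N) (N₂ := N * r) hdvd
  have hψ := isBeta_betaIncl (N₁ := N) (N₂ := N * r) r (dvd_refl _)
  have hℓNr : ¬ ℓ ∣ N * r := by
    intro h
    rcases (Nat.Prime.dvd_mul hℓ).mp h with h | h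
    · exact hℓN h
    · exact hne ((Nat.prime_dvd_prime_iff_eq hℓ hr).mp h)
  have hrNℓ : ¬ r ∣ N * ℓ := by
    intro h
    rcases (Nat.Prime.dvd_mul hr).mp h with h | h
    · exact hrN h
    · exact hne ((Nat.prime_dvd_prime_iff_eq hr hℓ).mp h).symm
  rw [← pushL_alpha_pullL_beta hr hrN rfl hφ hψ (finiteAlong_any _) (finiteAlong_any _) x,
    hecke_pushL_alpha hℓ hℓNr hr hrNℓ rfl hφ (finiteAlong_any _),
    hecke_pullL_beta hℓ hℓNr (dvd_refl _) hψ (finiteAlong_any _),
    pushL_alpha_pullL_beta hr hrN rfl hφ hψ (finiteAlong_any _) (finiteAlong_any _)]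

/-- **`T_ℓ T_r = T_r T_ℓ`** on `J₀(N)` for primes `ℓ, r ∤ N`. -/
theorem heckeOperatorBar_comm (ℓ r : Nat.Primes) (hℓ : ¬ (ℓ : ℕ) ∣ N) (hr : ¬ (r : ℕ) ∣ N) :
    heckeOperatorBar N ℓ * heckeOperatorBar N r = heckeOperatorBar N r * heckeOperatorBar N ℓ := by
  by_cases hne : (ℓ : ℕ) = r
  · have : ℓ = r := Subtype.ext hne
    rw [this]
  · refine LinearMap.ext fun x => ?_
    rw [Module.End.mul_apply, Module.End.mul_apply]
    obtain ⟨ℓ, hℓp⟩ := ℓ
    obtain ⟨r, hrp⟩ := r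
    exact hecke_comm_apply hℓp hrp hℓ hr hne x

end Comm

/-! ### the Hecke ring -/

section Ring

variable (N : ℕ) [NeZero N]

/-- the generators: Hecke operators at primes not dividing the level. -/
def gens : Set (Module.End ℤ (JZero N)) :=
  {T | ∃ q : Nat.Primes, ¬ (q : ℕ) ∣ N ∧ T = heckeOperatorBar N q}

/-- the `ℤ`-subalgebra of `End (J₀(N))` generated by the `T_q`, `q ∤ N`. -/
def heckeSub : Subalgebra ℤ (Module.End ℤ (JZero N)) := Algebra.adjoin ℤ (gens N)

theorem gens_comm : ∀ a ∈ gens N, ∀ b ∈ gens N, a * b = b * a := by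
  rintro a ⟨q, hq, rfl⟩ b ⟨q', hq', rfl⟩
  exact heckeOperatorBar_comm q q' hq hq'

/-- **the Hecke ring** of level `N` (prime-to-`N` Hecke operators), as a type. -/
def R : Type := ↥(heckeSub N)

/-- the underlying endomorphism. -/
def toEndFun : R N → Module.End ℤ (JZero N) := Subtype.val

theorem toEndFun_injective : Function.Injective (toEndFun N) := Subtype.val_injective

theorem toEndFun_mem (t : R N) : toEndFun N t ∈ heckeSub N := t.2

instance : Zero (R N) := ⟨⟨0, zero_mem _⟩⟩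
instance : One (R N) := ⟨⟨1, one_mem _⟩⟩
instance : Add (R N) := ⟨fun a b => ⟨toEndFun N a + toEndFun N b, add_mem a.2 b.2⟩⟩
instance : Mul (R N) := ⟨fun a b => ⟨toEndFun N a * toEndFun N b, mul_mem a.2 b.2⟩⟩
instance : Neg (R N) := ⟨fun a => ⟨-toEndFun N a, neg_mem a.2⟩⟩
instance : Sub (R N) := ⟨fun a b => ⟨toEndFun N a - toEndFun N b, sub_mem a.2 b.2⟩⟩
instance : SMul ℕ (R N) := ⟨fun n a => ⟨n • toEndFun N a, nsmul_mem a.2 n⟩⟩
instance : SMul ℤ (R N) := ⟨fun n a => ⟨n • toEndFun N a, zsmul_mem a.2 n⟩⟩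
instance : Pow (R N) ℕ := ⟨fun a n => ⟨toEndFun N a ^ n, pow_mem a.2 n⟩⟩
instance : NatCast (R N) := ⟨fun n => ⟨(n : Module.End ℤ (JZero N)), natCast_mem _ n⟩⟩
instance : IntCast (R N) := ⟨fun n => ⟨(n : Module.End ℤ (JZero N)), intCast_mem _ n⟩⟩

instance instRingR : Ring (R N) :=
  Function.Injective.ring (toEndFun N) (toEndFun_injective N) rfl rfl (fun _ _ => rfl)
    (fun _ _ => rfl) (fun _ => rfl) (fun _ _ => rfl) (fun _ _ => rfl) (fun _ _ => rfl)
    (fun _ _ => rfl) (fun _ => rfl) (fun _ => rfl)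

theorem R_mul_comm (a b : R N) : a * b = b * a :=
  (Algebra.isMulCommutative_adjoin ℤ (gens_comm N)).is_comm.comm (a : ↥(heckeSub N)) b

instance instCommRingR : CommRing (R N) :=
  { instRingR N with mul_comm := R_mul_comm N }

/-- the inclusion of the Hecke ring into `End (J₀(N))`. -/
def toEnd : R N →+* Module.End ℤ (JZero N) where
  toFun := toEndFun N
  map_one' := rfl
  map_mul' _ _ := rfl
  map_zero' := rfl
  map_add' _ _ := rfl

theorem toEnd_injective : Function.Injective (toEnd N) := toEndFun_injective N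

theorem toEnd_mem (t : R N) : toEnd N t ∈ heckeSub N := t.2

instance instModuleR : Module (R N) (JZero N) := Module.compHom (JZero N) (toEnd N)

/-- `T_q` as an element of the Hecke ring. -/
def Tq (q : Nat.Primes) (hq : ¬ (q : ℕ) ∣ N) : R N :=
  ⟨heckeOperatorBar N q, Algebra.subset_adjoin ⟨q, hq, rfl⟩⟩

variable {N}

theorem smul_def (t : R N) (x : JZero N) : t • x = toEnd N t x := rfl

theorem toEnd_Tq (q : Nat.Primes) (hq : ¬ (q : ℕ) ∣ N) : toEnd N (Tq N q hq) = heckeOperatorBar N q :=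
  rfl

theorem Tq_smul (q : Nat.Primes) (hq : ¬ (q : ℕ) ∣ N) (x : JZero N) :
    Tq N q hq • x = heckeOperatorBar N q x := rfl

theorem intCast_smul (n : ℤ) (x : JZero N) : (n : R N) • x = n • x := by
  rw [smul_def, map_intCast]
  simp

theorem natCast_smul (n : ℕ) (x : JZero N) : (n : R N) • x = n • x := by
  rw [smul_def, map_natCast]
  simp

theorem mul_smul' (s t : R N) (x : JZero N) : (s * t) • x = s • t • x := by
  rw [smul_def, map_mul, Module.End.mul_apply]
  rfl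

theorem add_smul' (s t : R N) (x : JZero N) : (s + t) • x = s • x + t • x := by
  rw [smul_def, map_add, LinearMap.add_apply]
  rfl

/-- induction principle for the Hecke ring. -/
theorem R_induction {C : R N → Prop} (hint : ∀ n : ℤ, C (n : R N))
    (hT : ∀ (q : Nat.Primes) (hq : ¬ (q : ℕ) ∣ N), C (Tq N q hq))
    (hadd : ∀ s t, C s → C t → C (s + t)) (hmul : ∀ s t, C s → C t → C (s * t)) (t : R N) : C t := by
  obtain ⟨E, hE⟩ := t
  induction hE using Algebra.adjoin_induction with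
  | mem E hE =>
    obtain ⟨q, hq, rfl⟩ := hE
    exact hT q hq
  | algebraMap a =>
    have : (⟨algebraMap ℤ (Module.End ℤ (JZero N)) a, Subalgebra.algebraMap_mem _ a⟩ : R N) = (a : R N) := by
      apply toEnd_injective
      rw [map_intCast]
      simp [toEnd, toEndFun]
    rw [this]
    exact hint a
  | add E₁ E₂ h₁ h₂ ih₁ ih₂ => exact hadd ⟨E₁, h₁⟩ ⟨E₂, h₂⟩ ih₁ ih₂
  | mul E₁ E₂ h₁ h₂ ih₁ ih₂ => exact hmul ⟨E₁, h₁⟩ ⟨E₂, h₂⟩ ih₁ ih₂

/-- a subgroup stable under all `T_q`, `q ∤ N`, is stable under the Hecke ring. -/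
theorem stable_of_hecke (K : AddSubgroup (JZero N))
    (hK : ∀ (q : Nat.Primes), ¬ (q : ℕ) ∣ N → ∀ z ∈ K, heckeOperatorBar N q z ∈ K) (t : R N) :
    ∀ z ∈ K, t • z ∈ K := by
  induction t using R_induction with
  | hint n =>
    intro z hz
    rw [intCast_smul]
    exact K.zsmul_mem hz n
  | hT q hq =>
    intro z hz
    rw [Tq_smul]
    exact hK q hq z hz
  | hadd s t hs ht =>
    intro z hz
    rw [add_smul]
    exact K.add_mem (hs z hz) (ht z hz)
  | hmul s t hs ht =>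
    intro z hz
    rw [mul_smul']
    exact hs _ (ht z hz)

/-! ### Galois equivariance -/

theorem heckeSub_le : heckeSub N ≤ Algebra.adjoin ℤ (Set.range (heckeOperatorBar N)) := by
  apply Algebra.adjoin_mono
  rintro T ⟨q, _, rfl⟩
  exact ⟨q, rfl⟩

theorem smul_galois (t : R N) (σ : AlgebraicClosure ℚ ≃ₐ[ℚ] AlgebraicClosure ℚ) (x : JZero N) :
    t • (σ • x) = σ • (t • x) :=
  adjoin_apply_smul N (heckeSub_le (toEnd_mem N t)) σ x

instance instSMulCommClass :
    SMulCommClass (AlgebraicClosure ℚ ≃ₐ[ℚ] AlgebraicClosure ℚ) (R N) (JZero N) :=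
  ⟨fun σ t x => (smul_galois t σ x).symm⟩

theorem smul_mem_fixed (t : R N) {x : JZero N}
    (hx : x ∈ FixedPoints.addSubgroup (AlgebraicClosure ℚ ≃ₐ[ℚ] AlgebraicClosure ℚ) (JZero N)) :
    t • x ∈ FixedPoints.addSubgroup (AlgebraicClosure ℚ ≃ₐ[ℚ] AlgebraicClosure ℚ) (JZero N) := by
  intro σ
  rw [← smul_galois, hx σ]

theorem smul_torsion (t : R N) (m : ℕ) {x : JZero N} (hx : m • x = 0) : m • (t • x) = 0 := by
  rw [smul_def, ← map_nsmul, hx, map_zero]

end Ring

end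

end Fermat.Agent.MZ.HECKE.Ring5
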