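/-
Programme MZ (S15), chapter HECKE (helper5): **the commutative Hecke ring acting on `J₀(N)`, with a set of
excluded primes**: `R N D` is generated by the `T_q`, `q ∤ N * D` (MASTER v2, decision D2: the end-game
uses `D = 6 ℓ`, because `T_2, T_3` do not commute with the pull-back to the auxiliary levels `4p / 9p`).
Same API as `Ring5` (which is the case without excluded primes); commutativity from
`Ring5.heckeOperatorBar_comm`.

* `heckeSub N D`, `R N D` (`CommRing`), `Module (R N D) (JZero N)`, `toEnd`, `Tq N D q hq`, `Tq_smul`,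
  `natCast_smul`, `intCast_smul`, `R_induction`, `stable_of_hecke`;
* `SMulCommClass GQ (R N D) (JZero N)`, `smul_galois`, `smul_mem_fixed`, `smul_torsion`.
-/
import Mathlib
import Fermat.Agent.MZ.HECKE.Ring5

set_option autoImplicit false
set_option linter.unusedSectionVars false
set_option linter.style.longLine false
set_option linter.style.haveILetI false

namespace Fermat.Agent.MZ.HECKE.RingD5

open AlgebraicCurve ModularCurve
open Fermat.Agent.X0
open Fermat.Agent.ES.HECKE.HeckeGalois12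

noncomputable section

/-! ### the Hecke ring -/

section Ring

variable (N : ℕ) [NeZero N] (D : ℕ)

/-- the generators: Hecke operators at primes not dividing the level. -/
def gens : Set (Module.End ℤ (JZero N)) :=
  {T | ∃ q : Nat.Primes, ¬ (q : ℕ) ∣ N * D ∧ T = heckeOperatorBar N q}

/-- the `ℤ`-subalgebra of `End (J₀(N))` generated by the `T_q`, `q ∤ N`. -/
def heckeSub : Subalgebra ℤ (Module.End ℤ (JZero N)) := Algebra.adjoin ℤ (gens N D)

theorem gens_comm : ∀ a ∈ gens N D, ∀ b ∈ gens N D, a * b = b * a := by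
  rintro a ⟨q, hq, rfl⟩ b ⟨q', hq', rfl⟩
  exact Ring5.heckeOperatorBar_comm q q' (fun h => hq (h.mul_right D)) (fun h => hq' (h.mul_right D))

/-- **the Hecke ring** of level `N` (prime-to-`N` Hecke operators), as a type. -/
def R : Type := ↥(heckeSub N D)

/-- the underlying endomorphism. -/
def toEndFun : R N D → Module.End ℤ (JZero N) := Subtype.val

theorem toEndFun_injective : Function.Injective (toEndFun N D) := Subtype.val_injective

theorem toEndFun_mem (t : R N D) : toEndFun N D t ∈ heckeSub N D := t.2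

instance : Zero (R N D) := ⟨⟨0, zero_mem _⟩⟩
instance : One (R N D) := ⟨⟨1, one_mem _⟩⟩
instance : Add (R N D) := ⟨fun a b => ⟨toEndFun N D a + toEndFun N D b, add_mem a.2 b.2⟩⟩
instance : Mul (R N D) := ⟨fun a b => ⟨toEndFun N D a * toEndFun N D b, mul_mem a.2 b.2⟩⟩
instance : Neg (R N D) := ⟨fun a => ⟨-toEndFun N D a, neg_mem a.2⟩⟩
instance : Sub (R N D) := ⟨fun a b => ⟨toEndFun N D a - toEndFun N D b, sub_mem a.2 b.2⟩⟩
instance : SMul ℕ (R N D) := ⟨fun n a => ⟨n • toEndFun N D a, nsmul_mem a.2 n⟩⟩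
instance : SMul ℤ (R N D) := ⟨fun n a => ⟨n • toEndFun N D a, zsmul_mem a.2 n⟩⟩
instance : Pow (R N D) ℕ := ⟨fun a n => ⟨toEndFun N D a ^ n, pow_mem a.2 n⟩⟩
instance : NatCast (R N D) := ⟨fun n => ⟨(n : Module.End ℤ (JZero N)), natCast_mem _ n⟩⟩
instance : IntCast (R N D) := ⟨fun n => ⟨(n : Module.End ℤ (JZero N)), intCast_mem _ n⟩⟩

instance instRingR : Ring (R N D) :=
  Function.Injective.ring (toEndFun N D) (toEndFun_injective N D) rfl rfl (fun _ _ => rfl)
    (fun _ _ => rfl) (fun _ => rfl) (fun _ _ => rfl) (fun _ _ => rfl) (fun _ _ => rfl)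
    (fun _ _ => rfl) (fun _ => rfl) (fun _ => rfl)

theorem R_mul_comm (a b : R N D) : a * b = b * a :=
  (Algebra.isMulCommutative_adjoin ℤ (gens_comm N D)).is_comm.comm (a : ↥(heckeSub N D)) b

instance instCommRingR : CommRing (R N D) :=
  { instRingR N D with mul_comm := R_mul_comm N D }

/-- the inclusion of the Hecke ring into `End (J₀(N))`. -/
def toEnd : R N D →+* Module.End ℤ (JZero N) where
  toFun := toEndFun N D
  map_one' := rfl
  map_mul' _ _ := rfl
  map_zero' := rfl
  map_add' _ _ := rfl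

theorem toEnd_injective : Function.Injective (toEnd N D) := toEndFun_injective N D

theorem toEnd_mem (t : R N D) : toEnd N D t ∈ heckeSub N D := t.2

instance instModuleR : Module (R N D) (JZero N) := Module.compHom (JZero N) (toEnd N D)

/-- `T_q` as an element of the Hecke ring. -/
def Tq (q : Nat.Primes) (hq : ¬ (q : ℕ) ∣ N * D) : R N D :=
  ⟨heckeOperatorBar N q, Algebra.subset_adjoin ⟨q, hq, rfl⟩⟩

variable {N D}

theorem smul_def (t : R N D) (x : JZero N) : t • x = toEnd N D t x := rfl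

theorem toEnd_Tq (q : Nat.Primes) (hq : ¬ (q : ℕ) ∣ N * D) : toEnd N D (Tq N D q hq) = heckeOperatorBar N q :=
  rfl

theorem Tq_smul (q : Nat.Primes) (hq : ¬ (q : ℕ) ∣ N * D) (x : JZero N) :
    Tq N D q hq • x = heckeOperatorBar N q x := rfl

theorem intCast_smul (n : ℤ) (x : JZero N) : (n : R N D) • x = n • x := by
  rw [smul_def, map_intCast]
  simp

theorem natCast_smul (n : ℕ) (x : JZero N) : (n : R N D) • x = n • x := by
  rw [smul_def, map_natCast]
  simp

theorem mul_smul' (s t : R N D) (x : JZero N) : (s * t) • x = s • t • x := by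
  rw [smul_def, map_mul, Module.End.mul_apply]
  rfl

theorem add_smul' (s t : R N D) (x : JZero N) : (s + t) • x = s • x + t • x := by
  rw [smul_def, map_add, LinearMap.add_apply]
  rfl

/-- induction principle for the Hecke ring. -/
theorem R_induction {C : R N D → Prop} (hint : ∀ n : ℤ, C (n : R N D))
    (hT : ∀ (q : Nat.Primes) (hq : ¬ (q : ℕ) ∣ N * D), C (Tq N D q hq))
    (hadd : ∀ s t, C s → C t → C (s + t)) (hmul : ∀ s t, C s → C t → C (s * t)) (t : R N D) : C t := by
  obtain ⟨E, hE⟩ := t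
  induction hE using Algebra.adjoin_induction with
  | mem E hE =>
    obtain ⟨q, hq, rfl⟩ := hE
    exact hT q hq
  | algebraMap a =>
    have : (⟨algebraMap ℤ (Module.End ℤ (JZero N)) a, Subalgebra.algebraMap_mem _ a⟩ : R N D) = (a : R N D) := by
      apply toEnd_injective
      rw [map_intCast]
      simp [toEnd, toEndFun]
    rw [this]
    exact hint a
  | add E₁ E₂ h₁ h₂ ih₁ ih₂ => exact hadd ⟨E₁, h₁⟩ ⟨E₂, h₂⟩ ih₁ ih₂
  | mul E₁ E₂ h₁ h₂ ih₁ ih₂ => exact hmul ⟨E₁, h₁⟩ ⟨E₂, h₂⟩ ih₁ ih₂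

/-- a subgroup stable under all `T_q`, `q ∤ N`, is stable under the Hecke ring. -/
theorem stable_of_hecke (K : AddSubgroup (JZero N))
    (hK : ∀ (q : Nat.Primes), ¬ (q : ℕ) ∣ N * D → ∀ z ∈ K, heckeOperatorBar N q z ∈ K) (t : R N D) :
    ∀ z ∈ K, t • z ∈ K := by
  induction t using R_induction with
  | hint n =>
    intro z hz
    rw [intCast_smul]
    exact K.zsmul_mem hz n
  | hT q hq =>
    intro z hz
    rw [Tq_smul]
    exact hK q hq z hz
  | hadd s t hs ht =>
    intro z hz
    rw [add_smul]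
    exact K.add_mem (hs z hz) (ht z hz)
  | hmul s t hs ht =>
    intro z hz
    rw [mul_smul']
    exact hs _ (ht z hz)

/-! ### Galois equivariance -/

theorem heckeSub_le : heckeSub N D ≤ Algebra.adjoin ℤ (Set.range (heckeOperatorBar N)) := by
  apply Algebra.adjoin_mono
  rintro T ⟨q, _, rfl⟩
  exact ⟨q, rfl⟩

theorem smul_galois (t : R N D) (σ : AlgebraicClosure ℚ ≃ₐ[ℚ] AlgebraicClosure ℚ) (x : JZero N) :
    t • (σ • x) = σ • (t • x) :=
  adjoin_apply_smul N (heckeSub_le (toEnd_mem N D t)) σ x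

instance instSMulCommClass :
    SMulCommClass (AlgebraicClosure ℚ ≃ₐ[ℚ] AlgebraicClosure ℚ) (R N D) (JZero N) :=
  ⟨fun σ t x => (smul_galois t σ x).symm⟩

theorem smul_mem_fixed (t : R N D) {x : JZero N}
    (hx : x ∈ FixedPoints.addSubgroup (AlgebraicClosure ℚ ≃ₐ[ℚ] AlgebraicClosure ℚ) (JZero N)) :
    t • x ∈ FixedPoints.addSubgroup (AlgebraicClosure ℚ ≃ₐ[ℚ] AlgebraicClosure ℚ) (JZero N) := by
  intro σ
  rw [← smul_galois, hx σ]

theorem smul_torsion (t : R N D) (m : ℕ) {x : JZero N} (hx : m • x = 0) : m • (t • x) = 0 := by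
  rw [smul_def, ← map_nsmul, hx, map_zero]

end Ring

end

end Fermat.Agent.MZ.HECKE.RingD5
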