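/-
PROGRAMME MZ (S15), chapter CUSP/HECKE (helper1's `CuspEis1`, ported by helper5 to the Hecke ring with
excluded primes `RingD5.R p D`, MASTER v2 decision D2): **the Eisenstein maximal ideal `P` of the Hecke ring
`R p D` (MZ/HECKE/RingD5)**: `P ⊇ Ann_R(c)`, `c = cl((0) − (∞))`, residue characteristic `l' ∣ p − 1`,
`T_q − (q + 1) ∈ P` — NO hypothesis (uses `(p − 1) • c = 0`, `CuspUnit1`, and `c ≠ 0`, `CuspNonzero1`).

* `exists_maximal_of_torsion` (abstract) : `c ≠ 0`, `m • c = 0`, `m ≠ 0` ⟹ a maximal ideal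
  `P ⊇ Ann_T(c)` whose residue characteristic `l'` is a prime divisor of `m`;
* `Tq_sub_smul_cuspClass` : `(T_q − (q + 1)) • c = 0`;
* **`exists_eisenstein_maximal`**.
-/
import Mathlib
import Fermat.Agent.MZ.CUSP.CuspUnit1
import Fermat.Agent.MZ.CUSP.CuspHecke1
import Fermat.Agent.MZ.HECKE.RingD5
import Fermat.Agent.MZ.CUSP.CuspEis1

set_option autoImplicit false
set_option linter.unusedSectionVars false
set_option linter.unusedVariables false
set_option linter.style.longLine false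
set_option linter.style.haveILetI false
set_option synthInstance.maxHeartbeats 400000
set_option maxHeartbeats 1000000

open AlgebraicCurve ModularCurve

noncomputable section

namespace Fermat.Agent.MZ.HECKE.CuspEisD5

open Fermat.Agent.MZ.CUSP.CuspPlaces1 Fermat.Agent.MZ.HECKE.RingD5 Fermat.Agent.MZ.CUSP

variable {p : ℕ} [NeZero p] {D : ℕ}

theorem natCast_add_one_smul (n : ℕ) (x : JZero p) :
    (((n : ℕ) : R p D) + 1) • x = (((n : ℕ) : ℤ) + 1) • x := by
  rw [add_smul', natCast_smul, add_zsmul, one_zsmul, one_smul, natCast_zsmul]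

/-- `(T_q − (q + 1)) • c = 0`. -/
theorem Tq_sub_smul_cuspClass (q : Nat.Primes) (hq : ¬ (q : ℕ) ∣ p * D) :
    (Tq p D q hq - (((q : ℕ) : R p D) + 1)) • cuspClass p = 0 := by
  rw [sub_smul, Tq_smul, natCast_add_one_smul]
  exact sub_eq_zero.mpr (CuspHecke1.heckeOperatorBar_cuspClass p q (fun h => hq (h.mul_right D)))

/-- **the Eisenstein maximal ideal** of `R p`, `p` prime, `p ∉ {2, 3, 5, 7, 13}`. -/
theorem exists_eisenstein_maximal (D : ℕ) (hp : p.Prime) (hp' : p ∉ ({2, 3, 5, 7, 13} : Finset ℕ)) :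
    ∃ (P : Ideal (R p D)) (l' : ℕ), P.IsMaximal ∧ l'.Prime ∧ l' ∣ p - 1 ∧ l' < p - 1 ∧
      ((l' : ℕ) : R p D) ∈ P ∧ (∀ t : R p D, t • cuspClass p = 0 → t ∈ P) ∧
      ∀ (q : Nat.Primes) (hq : ¬ (q : ℕ) ∣ p * D), Tq p D q hq - (((q : ℕ) : R p D) + 1) ∈ P := by
  have hc := CuspNonzero1.cuspClass_ne_zero hp hp'
  have h1 : 1 ≤ p := hp.pos
  have hm : (p - 1) • cuspClass p = 0 := by
    have h := CuspUnit1.sub_one_smul_cuspClass p hp
    have h2 : ((p : ℤ) - 1) = ((p - 1 : ℕ) : ℤ) := by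
      rw [Nat.cast_sub h1]; simp
    rw [h2, natCast_zsmul] at h
    exact h
  have hp11 : 11 ≤ p := by
    simp only [Finset.mem_insert, Finset.mem_singleton, not_or] at hp'
    by_contra hlt
    have hlt' : p < 11 := not_le.mp hlt
    interval_cases p <;> first | omega | (exfalso; revert hp; decide)
  obtain ⟨P, l', hPmax, hl', hdvd, hl'P, hann⟩ :=
    CuspEis1.exists_maximal_of_torsion (T := R p D) (cuspClass p) hc (p - 1) (by omega) hm
  refine ⟨P, l', hPmax, hl', hdvd, ?_, hl'P, hann, fun q hq => hann _ (Tq_sub_smul_cuspClass q hq)⟩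
  -- `l' < p - 1`: otherwise `p - 1` is an even prime
  have hle : l' ≤ p - 1 := Nat.le_of_dvd (by omega) hdvd
  rcases Nat.lt_or_ge l' (p - 1) with h | h
  · exact h
  · exfalso
    have heq : l' = p - 1 := le_antisymm hle h
    have hodd : Odd p := hp.odd_of_ne_two (by omega)
    have heven : Even (p - 1) := by
      obtain ⟨k, hk⟩ := hodd
      exact ⟨k, by omega⟩
    rw [← heq] at heven
    have h2 : l' = 2 := (Nat.Prime.even_iff hl').mp heven
    omega

end Fermat.Agent.MZ.HECKE.CuspEisD5
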