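/-
Programme MZ (S15), chapter HECKE (helper5), EIS-FIN part (a): **there is no Eisenstein cusp form**.

A cusp form `f ∈ S₂(Γ₀(N))` with `T_ℓ f = (ℓ + 1) f` for all primes `ℓ ∤ N` outside a finite set `S` is zero:
if `a_{n₀}(f) ≠ 0` then `a_{n₀ ℓ₁ ⋯ ℓ_k}(f) = ∏ (ℓ_i + 1) · a_{n₀}(f)` for distinct good primes `ℓ_i ∤ n₀`
(Prelude `ModularFormClass.qCoeff_heckeT`), while Hecke's bound `a_n = O(n)`
(Mathlib `CuspFormClass.qExpansion_isBigO`) forces `∏ (1 + 1/ℓ_i)` to stay bounded — contradicting the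
divergence of `∑ 1/ℓ` over the primes.
-/
import Mathlib
import Fermat.Prelude.Def_CuspForm_HeckeAlgebra
import Fermat.Prelude.Thm_ModularFormClass_qCoeff_heckeT
import Fermat.Prelude.Thm_CongruenceSubgroup_one_mem_strictPeriods_Gamma0

set_option autoImplicit false
set_option linter.unusedSectionVars false
set_option linter.style.longLine false
set_option linter.style.haveILetI false

namespace Fermat.Agent.MZ.HECKE.EisForms5

open CongruenceSubgroup UpperHalfPlane ModularFormClass CuspForm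
open scoped MatrixGroups

noncomputable section

/-! ### a product bound -/

theorem one_add_sum_le_prod {ι : Type*} (T : Finset ι) (x : ι → ℝ) (hx : ∀ i ∈ T, 0 ≤ x i) :
    1 + ∑ i ∈ T, x i ≤ ∏ i ∈ T, (1 + x i) := by
  classical
  induction T using Finset.induction_on with
  | empty => simp
  | insert a T ha ih =>
    rw [Finset.sum_insert ha, Finset.prod_insert ha]
    have h1 := ih (fun i hi => hx i (Finset.mem_insert_of_mem hi))
    have h2 : 0 ≤ x a := hx a (Finset.mem_insert_self a T)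
    have h3 : 0 ≤ ∑ i ∈ T, x i := Finset.sum_nonneg fun i hi => hx i (Finset.mem_insert_of_mem hi)
    nlinarith

/-- the sum of `1/ℓ` over primes outside a finite set is unbounded. -/
theorem exists_primes_sum_gt (bad : Finset ℕ) (B : ℝ) :
    ∃ T : Finset Nat.Primes, (∀ ℓ ∈ T, (ℓ : ℕ) ∉ bad) ∧ B < ∑ ℓ ∈ T, 1 / ((ℓ : ℕ) : ℝ) := by
  classical
  by_contra hcon
  push Not at hcon
  let g : Nat.Primes → ℝ := fun ℓ => if (ℓ : ℕ) ∈ bad then 0 else 1 / ((ℓ : ℕ) : ℝ)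
  have hg0 : 0 ≤ g := fun ℓ => by
    simp only [g]
    split_ifs
    · exact le_refl _
    · positivity
  have hgsum : Summable g := by
    refine summable_of_sum_le hg0 (c := B) fun u => ?_
    have h1 : ∑ ℓ ∈ u, g ℓ = ∑ ℓ ∈ u.filter (fun ℓ : Nat.Primes => (ℓ : ℕ) ∉ bad), 1 / ((ℓ : ℕ) : ℝ) := by
      rw [Finset.sum_filter]
      refine Finset.sum_congr rfl fun ℓ _ => ?_
      simp only [g]
      split_ifs <;> simp_all
    rw [h1]
    exact hcon _ (fun ℓ hℓ => (Finset.mem_filter.mp hℓ).2)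
  have hcof : g =ᶠ[Filter.cofinite] fun ℓ : Nat.Primes => 1 / ((ℓ : ℕ) : ℝ) := by
    rw [Filter.EventuallyEq, Filter.eventually_cofinite]
    have hfin : {ℓ : Nat.Primes | (ℓ : ℕ) ∈ bad}.Finite := by
      refine Set.Finite.of_injOn (f := fun ℓ : Nat.Primes => (ℓ : ℕ)) (t := (bad : Set ℕ)) ?_ ?_
        bad.finite_toSet
      · intro ℓ hℓ
        exact hℓ
      · intro a _ b _ hab
        exact Subtype.ext hab
    refine hfin.subset fun ℓ hℓ => ?_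
    simp only [Set.mem_ofPred_eq, g] at hℓ ⊢
    by_contra h
    exact hℓ (if_neg h)
  exact Nat.Primes.not_summable_one_div (hgsum.congr_cofinite hcof)

/-! ### the coefficient relations -/

variable {N : ℕ} [NeZero N]

/-- `a_n(T_ℓ f) = a_{nℓ}(f) + [ℓ ∣ n] ℓ a_{n/ℓ}(f)` for cusp forms of weight `2` on `Γ₀(N)`. -/
theorem qCoeff_heckeTLin (f : CuspForm (Gamma0 N) 2) {ℓ : ℕ} (hℓ : ℓ.Prime) (hℓN : ¬ ℓ ∣ N)
    (n : ℕ) :
    qCoeff (heckeTLin 2 hℓ hℓN f) n =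
      qCoeff f (n * ℓ) + if ℓ ∣ n then (ℓ : ℂ) * qCoeff f (n / ℓ) else 0 := by
  have h := ModularFormClass.qCoeff_heckeT (k := 2) f (one_mem_strictPeriods_Gamma0 N) hℓ.ne_zero n
  rw [coe_heckeTLin_apply, h, ModularForm.coeffHeckeT_apply]
  norm_num

/-- the hypothesis: `f` is an eigenform with the Eisenstein eigenvalues outside `bad`. -/
def IsEis (bad : Finset ℕ) (f : CuspForm (Gamma0 N) 2) : Prop :=
  ∀ (ℓ : ℕ) (hℓ : ℓ.Prime) (hℓN : ¬ ℓ ∣ N), ℓ ∉ bad → heckeTLin 2 hℓ hℓN f = ((ℓ : ℂ) + 1) • f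

theorem qCoeff_smul (c : ℂ) (f : CuspForm (Gamma0 N) 2) (n : ℕ) :
    qCoeff (⇑(c • f)) n = c * qCoeff f n := by
  have hΓ := one_mem_strictPeriods_Gamma0 N
  rw [qCoeff, qCoeff, FunLike.coe_smul]
  have h := qExpansion_smul (h := 1) (f := ⇑f)
    ((ModularFormClass.analyticAt_cuspFunction_zero f one_pos hΓ)) c
  rw [h]
  simp

theorem coeff_mul_prime {bad : Finset ℕ} {f : CuspForm (Gamma0 N) 2} (hf : IsEis bad f) {ℓ : ℕ}
    (hℓ : ℓ.Prime) (hℓN : ¬ ℓ ∣ N) (hℓb : ℓ ∉ bad) {n : ℕ} (hn : ¬ ℓ ∣ n) :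
    qCoeff f (n * ℓ) = ((ℓ : ℂ) + 1) * qCoeff f n := by
  have h1 := qCoeff_heckeTLin f hℓ hℓN n
  rw [hf ℓ hℓ hℓN hℓb, qCoeff_smul, if_neg hn, add_zero] at h1
  exact h1.symm

theorem prime_not_dvd_prod {a : Nat.Primes} {T : Finset Nat.Primes} (ha : a ∉ T) :
    ¬ (a : ℕ) ∣ ∏ ℓ ∈ T, (ℓ : ℕ) := by
  intro h
  obtain ⟨ℓ, hℓT, hdvd⟩ := (Prime.dvd_finset_prod_iff (Nat.Prime.prime a.2) _).mp h
  have : (a : ℕ) = ℓ := (Nat.prime_dvd_prime_iff_eq a.2 ℓ.2).mp hdvd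
  exact ha (Subtype.ext this ▸ hℓT)

theorem coeff_mul_prod {bad : Finset ℕ} {f : CuspForm (Gamma0 N) 2} (hf : IsEis bad f) (n₀ : ℕ)
    (T : Finset Nat.Primes)
    (hT : ∀ ℓ ∈ T, ¬ (ℓ : ℕ) ∣ N ∧ (ℓ : ℕ) ∉ bad ∧ ¬ (ℓ : ℕ) ∣ n₀) :
    qCoeff f (n₀ * ∏ ℓ ∈ T, (ℓ : ℕ)) = (∏ ℓ ∈ T, (((ℓ : ℕ) : ℂ) + 1)) * qCoeff f n₀ := by
  classical
  induction T using Finset.induction_on with
  | empty => simp
  | insert a T ha ih =>
    have hT' : ∀ ℓ ∈ T, ¬ (ℓ : ℕ) ∣ N ∧ (ℓ : ℕ) ∉ bad ∧ ¬ (ℓ : ℕ) ∣ n₀ :=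
      fun ℓ hℓ => hT ℓ (Finset.mem_insert_of_mem hℓ)
    obtain ⟨haN, hab, han⟩ := hT a (Finset.mem_insert_self a T)
    rw [Finset.prod_insert ha, Finset.prod_insert ha]
    have hnd : ¬ (a : ℕ) ∣ n₀ * ∏ ℓ ∈ T, (ℓ : ℕ) := by
      intro h
      rcases (Nat.Prime.dvd_mul a.2).mp h with h | h
      · exact han h
      · exact prime_not_dvd_prod ha h
    have h1 := coeff_mul_prime hf a.2 haN hab hnd
    have h2 : n₀ * ((a : ℕ) * ∏ ℓ ∈ T, (ℓ : ℕ)) = n₀ * (∏ ℓ ∈ T, (ℓ : ℕ)) * a := by ring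
    rw [h2, h1, ih hT']
    ring

/-- `T ∈ Γ₀(N)`, hence the strict width at `∞` is `1`. -/
theorem strictWidthInfty_Gamma0 :
    (Subgroup.map (Matrix.SpecialLinearGroup.mapGL ℝ) (Gamma0 N)).strictWidthInfty = 1 := by
  apply Subgroup.strictWidthInfty_eq_one_of_T_mem
  rw [Gamma0_mem]
  simp [ModularGroup.T]

/-- **Hecke's bound**, in the form `‖a_n‖ ≤ C n` for all `n ≥ 1`. -/
theorem exists_hecke_bound (f : CuspForm (Gamma0 N) 2) :
    ∃ C : ℝ, 0 < C ∧ ∀ n : ℕ, 1 ≤ n → ‖qCoeff f n‖ ≤ C * n := by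
  have h := CuspFormClass.qExpansion_isBigO f
  rw [strictWidthInfty_Gamma0] at h
  obtain ⟨C, hC, hb⟩ := Asymptotics.bound_of_isBigO_nat_atTop h
  refine ⟨C, hC, fun n hn => ?_⟩
  have hn0 : (0 : ℝ) < n := by exact_mod_cast hn
  have hpow : ((n : ℝ) ^ (((2 : ℤ) : ℝ) / 2)) = n := by
    have : (((2 : ℤ) : ℝ) / 2) = 1 := by norm_num
    rw [this, Real.rpow_one]
  have := hb (x := n) (by rw [hpow]; exact hn0.ne')
  rw [hpow, Real.norm_of_nonneg hn0.le] at this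
  exact this

/-- **there is no Eisenstein cusp form of weight 2.** -/
theorem eq_zero_of_isEis {bad : Finset ℕ} {f : CuspForm (Gamma0 N) 2} (hf : IsEis bad f) : f = 0 := by
  classical
  by_contra hne
  have hΓ := one_mem_strictPeriods_Gamma0 N
  -- a nonzero coefficient
  have hq : qExpansion 1 f ≠ 0 := by
    intro h0
    apply hne
    have := (qExpansion_eq_zero_iff (h := 1) one_pos
      (SlashInvariantFormClass.periodic_comp_ofComplex f hΓ) (CuspFormClass.holo f)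
      (ModularFormClass.bdd_at_infty f)).mp h0
    exact DFunLike.coe_injective this
  obtain ⟨n₀, hn₀⟩ : ∃ n₀, qCoeff f n₀ ≠ 0 := by
    by_contra hall
    push Not at hall
    exact hq (PowerSeries.ext fun n => by simpa [qCoeff] using hall n)
  have hn₀pos : 1 ≤ n₀ := by
    rcases Nat.eq_zero_or_pos n₀ with h | h
    · exfalso
      apply hn₀
      rw [h, qCoeff]
      exact CuspFormClass.qExpansion_coeff_zero f one_pos hΓ
    · exact h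
  obtain ⟨C, hC, hbound⟩ := exists_hecke_bound f
  set B : ℝ := C * n₀ / ‖qCoeff f n₀‖ with hB
  have hnorm : 0 < ‖qCoeff f n₀‖ := norm_pos_iff.mpr hn₀
  obtain ⟨T, hTbad, hTsum⟩ :=
    exists_primes_sum_gt (bad ∪ N.primeFactors ∪ n₀.primeFactors) B
  have hT : ∀ ℓ ∈ T, ¬ (ℓ : ℕ) ∣ N ∧ (ℓ : ℕ) ∉ bad ∧ ¬ (ℓ : ℕ) ∣ n₀ := by
    intro ℓ hℓ
    have h := hTbad ℓ hℓ
    simp only [Finset.mem_union, not_or] at h
    refine ⟨fun hd => h.1.2 ?_, h.1.1, fun hd => h.2 ?_⟩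
    · exact Nat.mem_primeFactors.mpr ⟨ℓ.2, hd, NeZero.ne N⟩
    · exact Nat.mem_primeFactors.mpr ⟨ℓ.2, hd, by omega⟩
  have hcoef := coeff_mul_prod hf n₀ T hT
  set P : ℕ := ∏ ℓ ∈ T, (ℓ : ℕ) with hP
  have hPpos : 1 ≤ P := by
    rw [hP]
    exact Nat.one_le_iff_ne_zero.mpr (Finset.prod_ne_zero_iff.mpr fun ℓ _ => ℓ.2.ne_zero)
  have hb := hbound (n₀ * P) (Nat.one_le_iff_ne_zero.mpr (Nat.mul_ne_zero (by omega) (by omega)))
  rw [hcoef, norm_mul, norm_prod] at hb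
  -- the product of `ℓ + 1`
  have hprod : ∏ ℓ ∈ T, ‖(((ℓ : ℕ) : ℂ) + 1)‖ = (P : ℝ) * ∏ ℓ ∈ T, (1 + 1 / ((ℓ : ℕ) : ℝ)) := by
    rw [hP, Nat.cast_prod, ← Finset.prod_mul_distrib]
    refine Finset.prod_congr rfl fun ℓ _ => ?_
    have hℓ0 : (0 : ℝ) < ((ℓ : ℕ) : ℝ) := by exact_mod_cast ℓ.2.pos
    have : (((ℓ : ℕ) : ℂ) + 1) = (((ℓ : ℕ) + 1 : ℕ) : ℂ) := by push_cast; ring
    rw [this, Complex.norm_natCast]
    push_cast
    field_simp
  rw [hprod] at hb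
  have hsum := one_add_sum_le_prod T (fun ℓ : Nat.Primes => 1 / ((ℓ : ℕ) : ℝ))
    (fun ℓ _ => by positivity)
  have hPpos' : (0 : ℝ) < P := by exact_mod_cast hPpos
  have hn₀pos' : (0 : ℝ) < n₀ := by exact_mod_cast hn₀pos
  -- `∏ (1 + 1/ℓ) ≤ B`
  set Q : ℝ := ∏ ℓ ∈ T, (1 + 1 / ((ℓ : ℕ) : ℝ)) with hQ
  have hle : Q ≤ B := by
    rw [hB, le_div_iff₀ hnorm]
    have h1 : (P : ℝ) * (Q * ‖qCoeff f n₀‖) ≤ (P : ℝ) * (C * n₀) := by
      calc (P : ℝ) * (Q * ‖qCoeff f n₀‖)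
          = ((P : ℝ) * Q) * ‖qCoeff f n₀‖ := by ring
        _ ≤ C * ((n₀ * P : ℕ) : ℝ) := hb
        _ = (P : ℝ) * (C * n₀) := by push_cast; ring
    exact le_of_mul_le_mul_left h1 hPpos'
  linarith

end

end Fermat.Agent.MZ.HECKE.EisForms5
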