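import Mathlib

/-!
# An ideal of a finite flat ℤ-algebra with no annihilated element contains a positive integer

`Fermat.Agent.MZ.HECKE.EisIdealAbs5.exists_nat_mem` : if `A` is a commutative ring which is a
finitely generated torsion-free `ℤ`-module and `I` is an ideal such that no nonzero `b : A`
is killed by all of `I`, then `I` contains a positive integer.
-/

set_option autoImplicit false

namespace Fermat.Agent.MZ.HECKE.EisIdealAbs5

/-- In a Noetherian ring, an ideal killing no nonzero element contains a non-zero-divisor. -/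
theorem exists_mem_nonZeroDivisors {A : Type*} [CommRing A] [IsNoetherianRing A]
    (I : Ideal A) (h : ∀ b : A, b ≠ 0 → ∃ t ∈ I, t * b ≠ 0) :
    ∃ t ∈ I, t ∈ nonZeroDivisors A := by
  by_contra hcon
  push Not at hcon
  have hsub : (I : Set A) ⊆ ⋃ p ∈ associatedPrimes A A, (p : Set A) := by
    rw [biUnion_associatedPrimes_eq_compl_nonZeroDivisors]
    intro t ht
    exact hcon t ht
  have hfin : (associatedPrimes A A).Finite := associatedPrimes.finite A A
  have hsub' : (I : Set A) ⊆ ⋃ p ∈ (↑hfin.toFinset : Set (Ideal A)), ((fun p => p) p : Ideal A) := by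
    simpa using hsub
  rw [Ideal.subset_union_prime (⊥ : Ideal A) (⊥ : Ideal A)] at hsub'
  · obtain ⟨p, hp, hIp⟩ := hsub'
    rw [Set.Finite.mem_toFinset, AssociatedPrimes.mem_iff, isAssociatedPrime_iff] at hp
    obtain ⟨hprime, x, hx⟩ := hp
    have hx0 : x ≠ 0 := by
      rintro rfl
      apply hprime.ne_top
      rw [hx]
      simp
    obtain ⟨t, htI, ht⟩ := h x hx0
    apply ht
    have : t ∈ (⊥ : Submodule A A).colon {x} := hx ▸ hIp htI
    rw [Submodule.mem_colon_singleton] at this
    simpa using this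
  · intro p hp _ _
    rw [Set.Finite.mem_toFinset] at hp
    exact hp.isPrime

/-- A non-zero-divisor of a finite free `ℤ`-algebra divides a positive integer. -/
theorem exists_nat_eq_mul {A : Type*} [CommRing A] [Module.Finite ℤ A] [Module.Free ℤ A]
    (t : A) (ht : t ∈ nonZeroDivisors A) : ∃ m : ℕ, 0 < m ∧ ∃ y : A, (m : A) = t * y := by
  let μ : A →ₗ[ℤ] A := LinearMap.mulLeft ℤ t
  have hinj : Function.Injective μ := by
    intro a b hab
    have : t * (a - b) = 0 := by
      simp only [μ, LinearMap.mulLeft_apply] at hab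
      rw [mul_sub, hab, sub_self]
    have := (mul_left_mem_nonZeroDivisors_eq_zero_iff ht).1 this
    exact sub_eq_zero.1 this
  have hrank : Module.finrank ℤ (LinearMap.range μ) = Module.finrank ℤ A :=
    LinearMap.finrank_range_of_inj hinj
  have : Finite (A ⧸ LinearMap.range μ) := Submodule.finiteQuotientOfFreeOfRankEq _ hrank
  refine ⟨Nat.card (A ⧸ LinearMap.range μ), Nat.card_pos, ?_⟩
  have h1 : (Nat.card (A ⧸ LinearMap.range μ)) • (Submodule.Quotient.mk (1 : A) :
      A ⧸ LinearMap.range μ) = 0 := by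
    exact card_nsmul_eq_zero' 
  rw [← Submodule.Quotient.mk_smul, Submodule.Quotient.mk_eq_zero] at h1
  obtain ⟨y, hy⟩ := h1
  refine ⟨y, ?_⟩
  simp only [μ, LinearMap.mulLeft_apply] at hy
  rw [hy, nsmul_one]

/-- **Main abstract statement.** -/
theorem exists_nat_mem {A : Type*} [CommRing A] [Module.Finite ℤ A] [IsAddTorsionFree A]
    (I : Ideal A) (h : ∀ b : A, b ≠ 0 → ∃ t ∈ I, t * b ≠ 0) :
    ∃ m : ℕ, 0 < m ∧ (m : A) ∈ I := by
  have : IsNoetherianRing A := IsNoetherianRing.of_finite ℤ A
  have : Module.Free ℤ A := inferInstance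
  obtain ⟨t, htI, ht⟩ := exists_mem_nonZeroDivisors I h
  obtain ⟨m, hm, y, hy⟩ := exists_nat_eq_mul t ht
  exact ⟨m, hm, hy ▸ I.mul_mem_right y htI⟩

end Fermat.Agent.MZ.HECKE.EisIdealAbs5
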