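/-
Programme MZ (S15), chapter HECKE (helper5), EIS-FIN part (b): **the Eisenstein ideal of the (anemic)
Hecke algebra of weight-2 cusp forms contains a positive integer.**

`A := CuspForm.heckeAlgebra N 2 S` (`S` a finite set of excluded primes), `eisIdeal S` the ideal generated by the
`T_ℓ − (ℓ + 1)`, `ℓ ∤ N`, `ℓ ∉ S`.  `exists_nat_mem_eisIdeal : ∃ m > 0, (m : A) ∈ eisIdeal S`.

Proof: `A` is a finite torsion-free `ℤ`-module (S22), so by `EisIdealAbs5.exists_nat_mem` it suffices that no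
nonzero `b ∈ A` is killed by the ideal; such a `b` would produce (apply `b` to a cusp form `v` with `b v ≠ 0`) a
nonzero cusp form with the Eisenstein eigenvalues, excluded by `EisForms5.eq_zero_of_isEis` (Hecke bound).
-/
import Mathlib
import Fermat.Agent.S22
import Fermat.Agent.MZ.HECKE.EisForms5
import Fermat.Agent.MZ.HECKE.EisIdealAbs5

set_option autoImplicit false
set_option linter.unusedSectionVars false
set_option linter.style.longLine false

namespace Fermat.Agent.MZ.HECKE.EisIdeal5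

open CongruenceSubgroup CuspForm
open Fermat.Agent.MZ.HECKE.EisForms5

noncomputable section

variable {N : ℕ} [NeZero N] (S : Finset ℕ)

/-- the Hecke algebra with the primes of `S` excluded. -/
abbrev A (N : ℕ) [NeZero N] (S : Finset ℕ) : Type := ↥(heckeAlgebra N 2 (S : Set ℕ))

/-- the generators of the Eisenstein ideal. -/
def eisGens : Set (A N S) :=
  {t | ∃ (ℓ : ℕ) (hℓ : ℓ.Prime) (hℓN : ¬ ℓ ∣ N) (hℓS : ℓ ∉ (S : Set ℕ)),
    t = heckeAlgebra.T hℓ hℓN hℓS - ((ℓ : A N S) + 1)}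

/-- **the Eisenstein ideal.** -/
def eisIdeal : Ideal (A N S) := Ideal.span (eisGens S)

theorem T_sub_mem_eisIdeal {ℓ : ℕ} (hℓ : ℓ.Prime) (hℓN : ¬ ℓ ∣ N) (hℓS : ℓ ∉ (S : Set ℕ)) :
    (heckeAlgebra.T hℓ hℓN hℓS - ((ℓ : A N S) + 1) : A N S) ∈ eisIdeal S :=
  Ideal.subset_span ⟨ℓ, hℓ, hℓN, hℓS, rfl⟩

/-- **the Eisenstein ideal contains a positive integer.** -/
theorem exists_nat_mem_eisIdeal : ∃ m : ℕ, 0 < m ∧ (m : A N S) ∈ eisIdeal S := by
  have : Module.Finite ℤ (A N S) := Fermat.Agent.S22.result N 2 (S : Set ℕ)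
  refine EisIdealAbs5.exists_nat_mem (eisIdeal S) fun b hb => ?_
  by_contra hcon
  push Not at hcon
  -- a cusp form not killed by `b`
  have hb' : (b : Module.End ℂ (CuspForm (Gamma0 N) 2)) ≠ 0 := fun h => hb (Subtype.ext h)
  obtain ⟨v, hv⟩ : ∃ v, (b : Module.End ℂ (CuspForm (Gamma0 N) 2)) v ≠ 0 := by
    by_contra h
    push Not at h
    exact hb' (LinearMap.ext h)
  refine hv (eq_zero_of_isEis (bad := S) ?_)
  intro ℓ hℓ hℓN hℓS
  have hℓS' : ℓ ∉ (S : Set ℕ) := by simpa using hℓS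
  have h0 := hcon _ (T_sub_mem_eisIdeal S hℓ hℓN hℓS')
  have h1 := congrArg (fun t : A N S => (t : Module.End ℂ (CuspForm (Gamma0 N) 2)) v) h0
  have hc : ((ℓ : A N S) : Module.End ℂ (CuspForm (Gamma0 N) 2)) = (ℓ : Module.End ℂ (CuspForm (Gamma0 N) 2)) :=
    map_natCast (heckeAlgebra N 2 (S : Set ℕ)).val ℓ
  simp only [Subalgebra.coe_mul, Subalgebra.coe_sub, Subalgebra.coe_add, Subalgebra.coe_one,
    hc, heckeAlgebra.coe_T, Subalgebra.coe_zero, Module.End.mul_apply,
    LinearMap.sub_apply, LinearMap.add_apply, Module.End.one_apply, LinearMap.zero_apply] at h1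
  rw [sub_eq_zero] at h1
  rw [h1, add_smul, one_smul]
  congr 1
  rw [Module.End.natCast_apply, Nat.cast_smul_eq_nsmul]

end

end Fermat.Agent.MZ.HECKE.EisIdeal5
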