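/-
Programme MZ (S15), chapter HECKE (helper5): **the `P`-idempotent on a finite module** (pure algebra,
Mathlib only).

For a commutative ring `R`, an ideal `P` and a FINITE `R`-module `M` there are `ε, s : R`, both `≡ 1 mod P`,
and `k ≥ 1` with: `ε` acts as an idempotent on `M`, `P ^ k` kills `ε M`, and `s` kills `(1 - ε) M`.
(Chain `P^k M` stabilises; Nakayama gives `r ≡ 1 mod P` killing `P^k M`; `a := 1 - r`, `ε := 1 - a^k`.)
-/
import Mathlib

set_option autoImplicit false
set_option linter.style.haveILetI false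

namespace Fermat.Agent.MZ.HECKE.IdemAbs5

variable {R M : Type*} [CommRing R] [AddCommGroup M] [Module R M]

/-- the chain `P^k M` stabilises on a finite module. -/
theorem exists_pow_smul_top_eq [Finite M] (P : Ideal R) :
    ∃ k : ℕ, 0 < k ∧ (P ^ k • (⊤ : Submodule R M)) = P • (P ^ k • (⊤ : Submodule R M)) := by
  let f : ℕ →o (Submodule R M)ᵒᵈ :=
    ⟨fun k => OrderDual.toDual (P ^ k • (⊤ : Submodule R M)), by
      intro a b hab
      exact Submodule.smul_mono_left (Ideal.pow_le_pow_right hab)⟩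
  obtain ⟨n, hn⟩ := IsArtinian.monotone_stabilizes f
  refine ⟨n + 1, Nat.succ_pos _, ?_⟩
  have h1 : P ^ (n + 1) • (⊤ : Submodule R M) = P ^ (n + 1 + 1) • (⊤ : Submodule R M) := by
    have e1 := hn (n + 1) (Nat.le_succ _)
    have e2 := hn (n + 1 + 1) (by omega)
    exact (OrderDual.toDual.injective e1).symm.trans (OrderDual.toDual.injective e2)
  rw [← Submodule.mul_smul, ← pow_succ']
  exact h1

/-- **the `P`-idempotent on a finite module.** -/
theorem exists_idem [Finite M] (P : Ideal R) :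
    ∃ (ε s : R) (k : ℕ), ε - 1 ∈ P ∧ s - 1 ∈ P ∧ (∀ x : M, ε • ε • x = ε • x) ∧
      (∀ x : M, s • (x - ε • x) = 0) ∧ (∀ t ∈ P ^ k, ∀ x : M, t • ε • x = 0) ∧
      (∀ t ∈ P ^ k, ∀ x : M, s • t • x = 0) := by
  obtain ⟨k, hk0, hk⟩ := exists_pow_smul_top_eq (M := M) P
  have hfg : (P ^ k • (⊤ : Submodule R M)).FG := by
    haveI : IsNoetherian R M := isNoetherian_of_finite R M
    exact IsNoetherian.noetherian _
  obtain ⟨r, hr1, hr⟩ :=
    Submodule.exists_sub_one_mem_and_smul_eq_zero_of_fg_of_le_smul P _ hfg hk.le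
  -- `r` kills `P^k M`
  have hrt : ∀ t ∈ P ^ k, ∀ x : M, r • t • x = 0 := fun t ht x =>
    hr _ (Submodule.smul_mem_smul ht Submodule.mem_top)
  set a : R := 1 - r with ha
  have haP : a ∈ P := by
    have : a = -(r - 1) := by rw [ha]; ring
    rw [this]
    exact P.neg_mem hr1
  have hak : a ^ k ∈ P ^ k := Ideal.pow_mem_pow haP k
  set u : R := ∑ i ∈ Finset.range k, a ^ i with hu
  have hεu : 1 - a ^ k = r * u := by
    have := mul_neg_geom_sum a k
    rw [← this, ha]
    ring
  have hakP : a ^ k ∈ P := by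
    obtain ⟨j, rfl⟩ : ∃ j, k = j + 1 := ⟨k - 1, by omega⟩
    rw [pow_succ]
    exact P.mul_mem_left _ haP
  refine ⟨1 - a ^ k, r, k, ?_, hr1, ?_, ?_, ?_, hrt⟩
  · have : 1 - a ^ k - 1 = -(a ^ k) := by ring
    rw [this]
    exact P.neg_mem hakP
  · intro x
    have h0 : (1 - a ^ k) • (x - (1 - a ^ k) • x) = 0 := by
      have : x - (1 - a ^ k) • x = a ^ k • x := by
        rw [sub_smul, one_smul]; abel
      rw [this, hεu, mul_comm r u, mul_smul]
      rw [hrt _ hak x, smul_zero]
    rw [smul_sub] at h0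
    exact (sub_eq_zero.mp h0).symm
  · intro x
    have : x - (1 - a ^ k) • x = a ^ k • x := by
      rw [sub_smul, one_smul]; abel
    rw [this]
    exact hrt _ hak x
  · intro t ht x
    rw [hεu, mul_comm r u, mul_smul, smul_comm t u, smul_comm t r, hrt t ht x, smul_zero]

/-- an element `≡ 1 mod P` is invertible modulo every power of `P`. -/
theorem exists_mul_sub_one_mem_pow (P : Ideal R) {s : R} (hs : s - 1 ∈ P) (k : ℕ) :
    ∃ v : R, v * s - 1 ∈ P ^ k := by
  -- `(1 - s)^k ∈ P^k` and `1 - (1-s)^k = s * (geometric sum)`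
  set a : R := 1 - s with ha
  have haP : a ∈ P := by
    have : a = -(s - 1) := by rw [ha]; ring
    rw [this]
    exact P.neg_mem hs
  refine ⟨∑ i ∈ Finset.range k, a ^ i, ?_⟩
  have h := mul_neg_geom_sum a k
  have hs' : s = 1 - a := by rw [ha]; ring
  have : (∑ i ∈ Finset.range k, a ^ i) * s - 1 = -(a ^ k) := by
    rw [hs', mul_comm, h]; ring
  rw [this]
  exact (P ^ k).neg_mem (Ideal.pow_mem_pow haP k)

/-- if `x` is killed by a power of `P` and by some `s ≡ 1 mod P`, then `x = 0`. -/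
theorem eq_zero_of_pow_of_unit (P : Ideal R) {s : R} (hs : s - 1 ∈ P) {k : ℕ} {x : M}
    (hk : ∀ t ∈ P ^ k, t • x = 0) (hsx : s • x = 0) : x = 0 := by
  obtain ⟨v, hv⟩ := exists_mul_sub_one_mem_pow P hs k
  have h1 := hk _ hv
  rw [sub_smul, one_smul, mul_smul, hsx, smul_zero, zero_sub, neg_eq_zero] at h1
  exact h1

end Fermat.Agent.MZ.HECKE.IdemAbs5
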