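/-
Programme MZ (S15), chapter HECKE (helper5), EIS-FIN part (c): **finiteness of the Eisenstein quotient on torsion.**

There is an integer `m > 0` (depending only on `N`, `D`) such that for every prime `l`, every `r`, every ideal `P`
of the Hecke ring `R N D` and every `x ∈ G_P[l^r] = IdemD5.GP P (l^r)`:

  `m • x ∈ eisSub (GP P (l^r))` := the subgroup generated by the `T_q y − (q+1) y`, `q ∤ N D`, `y ∈ GP P (l^r)`.

Consequence (`hom_nsmul_eq_zero`): every additive `f : GP P (l^r) → X` with `f (T_q y) = (q+1) f y` is killed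
by `m`.  (So the "Eisenstein quotient" of `G_r` has exponent dividing `m`, uniformly in `r`; this bounds
`H⁰(G_r^*)` in D5 of MASTER v2.)

Proof: `EisIdeal5.exists_nat_mem_eisIdeal` gives `m ∈ (T_ℓ − ℓ − 1)_ℓ` in the cusp-form Hecke algebra; the
algebra acts on the Tate module `T_l J₀(N)` compatibly with `T_ℓ` (`ES/K/HeckeTate26.evJ`, `evJ_T`), the Tate
module surjects onto `J[l^r]` because `J₀(N)(ℚ̄)` is divisible (`MW/A/NSGlue2.jzero_divisible`), and the
`P`-idempotent of `IdemD5.exists_idem` projects to `GP`.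
-/
import Mathlib
import Fermat.Agent.ES.K.HeckeTate26
import Fermat.Agent.MW.A.NSGlue2
import Fermat.Agent.MZ.HECKE.IdemD5
import Fermat.Agent.MZ.HECKE.EisIdeal5

set_option autoImplicit false
set_option linter.unusedSectionVars false
set_option linter.style.longLine false
set_option linter.style.haveILetI false

namespace Fermat.Agent.MZ.HECKE.EisFin5

open AlgebraicCurve ModularCurve CuspForm TensorProduct
open Fermat.Agent.MZ.HECKE.RingD5 Fermat.Agent.MZ.HECKE.IdemD5 Fermat.Agent.MZ.HECKE.EisIdeal5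
open Fermat.Agent.ES.J.TateModule13 Fermat.Agent.ES.J.TateJZero13 Fermat.Agent.ES.K.HeckeTate26

noncomputable section

/-! ### the Tate module of a divisible group surjects onto the torsion -/

section Abstract

variable {p : ℕ} [hp : Fact p.Prime] {J : Type*} [AddCommGroup J]

/-- a chain of `p`-th roots. -/
def rootChain (hdiv : ∀ x : J, ∃ y : J, p • y = x) (x : J) : ℕ → J
  | 0 => x
  | (j + 1) => (hdiv (rootChain hdiv x j)).choose

theorem rootChain_succ (hdiv : ∀ x : J, ∃ y : J, p • y = x) (x : J) (j : ℕ) :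
    p • rootChain hdiv x (j + 1) = rootChain hdiv x j :=
  (hdiv (rootChain hdiv x j)).choose_spec

theorem pow_smul_rootChain (hdiv : ∀ x : J, ∃ y : J, p • y = x) (x : J) (j : ℕ) :
    p ^ j • rootChain hdiv x j = x := by
  induction j with
  | zero => rw [pow_zero, one_smul]; rfl
  | succ j ih => rw [pow_succ, mul_smul, rootChain_succ, ih]

/-- **`proj k` is onto `J[p^k]`** for a `p`-divisible group. -/
theorem exists_proj_eq (hdiv : ∀ x : J, ∃ y : J, p • y = x) (k : ℕ) {x : J} (hx : p ^ k • x = 0) :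
    ∃ z : TateModule p J, proj k z = x := by
  refine ⟨⟨fun i => p ^ k • rootChain hdiv x i, ?_, fun i => ?_⟩, ?_⟩
  · show p ^ k • rootChain hdiv x 0 = 0
    exact hx
  · show p • (p ^ k • rootChain hdiv x (i + 1)) = p ^ k • rootChain hdiv x i
    rw [smul_comm, rootChain_succ]
  · show p ^ k • rootChain hdiv x k = x
    exact pow_smul_rootChain hdiv x k

end Abstract

theorem map_smul_comm {A E F : Type*} [CommRing A] [Ring E] [FunLike F A E] [RingHomClass F A E]
    (φ : F) (a t : A) : φ (a • t) = φ t * φ a := by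
  rw [smul_eq_mul, mul_comm, map_mul]

/-! ### the Eisenstein subgroup -/

variable {N : ℕ} [NeZero N] {D : ℕ}

/-- the subgroup generated by the `T_q y − (q + 1) y`, `q ∤ N D`, `y ∈ G`. -/
def eisSub (G : Set (JZero N)) : AddSubgroup (JZero N) :=
  AddSubgroup.closure {z | ∃ (q : Nat.Primes) (hq : ¬ (q : ℕ) ∣ N * D) (y : JZero N), y ∈ G ∧
    z = Tq N D q hq • y - ((q : ℕ) + 1) • y}

theorem sub_mem_eisSub {G : Set (JZero N)} (q : Nat.Primes) (hq : ¬ (q : ℕ) ∣ N * D) {y : JZero N}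
    (hy : y ∈ G) : Tq N D q hq • y - ((q : ℕ) + 1) • y ∈ eisSub (D := D) G :=
  AddSubgroup.subset_closure ⟨q, hq, y, hy, rfl⟩

theorem eisSub_mono {G G' : Set (JZero N)} (h : G ⊆ G') : eisSub (D := D) G ≤ eisSub (D := D) G' :=
  AddSubgroup.closure_mono (by
    rintro z ⟨q, hq, y, hy, rfl⟩
    exact ⟨q, hq, y, h hy, rfl⟩)

/-- a Hecke operator maps `eisSub G` into `eisSub G'` if it maps `G` into `G'`. -/
theorem smul_mem_eisSub (ε : R N D) {G G' : Set (JZero N)} (h : ∀ y ∈ G, ε • y ∈ G') {w : JZero N}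
    (hw : w ∈ eisSub (D := D) G) : ε • w ∈ eisSub (D := D) G' := by
  induction hw using AddSubgroup.closure_induction with
  | mem z hz =>
    obtain ⟨q, hq, y, hy, rfl⟩ := hz
    have : ε • (Tq N D q hq • y - ((q : ℕ) + 1) • y) =
        Tq N D q hq • (ε • y) - ((q : ℕ) + 1) • (ε • y) := by
      rw [smul_sub, smul_comm ε (Tq N D q hq) y, smul_comm ε ((q : ℕ) + 1) y]
    rw [this]
    exact sub_mem_eisSub q hq (h y hy)
  | zero => rw [smul_zero]; exact zero_mem _
  | add a b _ _ ha hb => rw [smul_add]; exact add_mem ha hb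
  | neg a _ ha => rw [smul_neg]; exact neg_mem ha

/-! ### the transfer -/

/-- the excluded primes. -/
def badSet (N D : ℕ) : Finset ℕ := (N * D).primeFactors

theorem not_dvd_of_not_mem_badSet (hD : D ≠ 0) {ℓ : ℕ} (hℓ : ℓ.Prime) (h : ℓ ∉ (badSet N D : Set ℕ)) :
    ¬ ℓ ∣ N * D := by
  intro hdvd
  apply h
  simp only [badSet, Finset.mem_coe, Nat.mem_primeFactors]
  exact ⟨hℓ, hdvd, Nat.mul_ne_zero (NeZero.ne N) hD⟩

theorem badSet_spec (hD : D ≠ 0) : ∀ q : ℕ, q.Prime → q ∣ N → q ∈ (badSet N D : Set ℕ) := by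
  intro q hq hqN
  simp only [badSet, Finset.mem_coe, Nat.mem_primeFactors]
  exact ⟨hq, hqN.mul_right D, Nat.mul_ne_zero (NeZero.ne N) hD⟩

section Transfer

variable (l : ℕ) [hl : Fact l.Prime] (hD : D ≠ 0)

/-- the action of the cusp-form Hecke algebra on the Tate module. -/
def phi : A N (badSet N D) →ₐ[ℤ] Module.End ℤ_[l] (TJ l N) :=
  evZ (badSet N D : Set ℕ) (badSet_spec hD) (iotaJ l N) (isBaseChange_iotaJ l N)

theorem phi_T {ℓ : ℕ} (hℓ : ℓ.Prime) (hℓN : ¬ ℓ ∣ N) (hℓS : ℓ ∉ (badSet N D : Set ℕ)) :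
    phi l hD (heckeAlgebra.T hℓ hℓN hℓS) = tT l N (⟨ℓ, hℓ⟩ : Nat.Primes) :=
  evJ_T (p := l) (badSet N D : Set ℕ) (badSet_spec hD) ℓ hℓ hℓN hℓS

/-- elements of the Eisenstein ideal map the Tate module into the Eisenstein subgroup, level by level. -/
theorem proj_phi_mem (r : ℕ) {t : A N (badSet N D)} (ht : t ∈ eisIdeal (N := N) (badSet N D)) :
    ∀ z : TJ l N, proj r (phi l hD t z) ∈ eisSub (D := D) {y : JZero N | l ^ r • y = 0} := by
  induction ht using Submodule.span_induction with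
  | mem t ht =>
    obtain ⟨ℓ, hℓ, hℓN, hℓS, rfl⟩ := ht
    intro z
    have h1 : phi l hD (heckeAlgebra.T hℓ hℓN hℓS - ((ℓ : A N (badSet N D)) + 1)) z =
        tT l N (⟨ℓ, hℓ⟩ : Nat.Primes) z - (ℓ + 1) • z := by
      rw [map_sub, map_add, map_natCast, map_one, phi_T, LinearMap.sub_apply, LinearMap.add_apply,
        Module.End.natCast_apply, Module.End.one_apply, add_smul, one_smul]
    have h2 : proj r (tT l N (⟨ℓ, hℓ⟩ : Nat.Primes) z) =
        heckeOperatorBar N (⟨ℓ, hℓ⟩ : Nat.Primes) (proj r z) := rfl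
    rw [h1, map_sub, map_nsmul, h2]
    exact sub_mem_eisSub (D := D) (⟨ℓ, hℓ⟩ : Nat.Primes) (not_dvd_of_not_mem_badSet hD hℓ hℓS)
      (pow_smul_proj r z)
  | zero =>
    intro z
    rw [map_zero, LinearMap.zero_apply, map_zero]
    exact zero_mem _
  | add s t _ _ hs ht =>
    intro z
    rw [map_add, LinearMap.add_apply, map_add]
    exact add_mem (hs z) (ht z)
  | smul a t _ ht =>
    intro z
    have h3 := ht (phi l hD a z)
    rw [map_smul_comm (phi l hD) a t]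
    exact h3

end Transfer

/-- **EIS-FIN on the full torsion**: `m • J[l^r] ⊆ eisSub J[l^r]`, `m` independent of `l`, `r`. -/
theorem exists_nsmul_mem_eisSub_tor (N : ℕ) [NeZero N] (D : ℕ) (hD : D ≠ 0) :
    ∃ m : ℕ, 0 < m ∧ ∀ (l : ℕ) (_ : l.Prime) (r : ℕ) (x : JZero N), l ^ r • x = 0 →
      m • x ∈ eisSub (D := D) {y : JZero N | l ^ r • y = 0} := by
  obtain ⟨m, hm, hmem⟩ := exists_nat_mem_eisIdeal (N := N) (badSet N D)
  refine ⟨m, hm, fun l hl r x hx => ?_⟩
  haveI : Fact l.Prime := ⟨hl⟩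
  obtain ⟨z, rfl⟩ := exists_proj_eq (p := l)
    (fun x : JZero N => Fermat.Agent.MW.A.NSGlue2.jzero_divisible N l hl.pos x) r hx
  have h := proj_phi_mem l hD r hmem z
  rwa [map_natCast, Module.End.natCast_apply, map_nsmul] at h

/-- **EIS-FIN**: `m • G_P[l^r] ⊆ eisSub G_P[l^r]`, `m` independent of `l`, `r`, `P`. -/
theorem exists_nsmul_mem_eisSub (N : ℕ) [NeZero N] (D : ℕ) (hD : D ≠ 0) :
    ∃ m : ℕ, 0 < m ∧ ∀ (l : ℕ) (_ : l.Prime) (r : ℕ) (P : Ideal (R N D)) (x : JZero N),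
      x ∈ GP P (l ^ r) → m • x ∈ eisSub (D := D) (GP P (l ^ r) : Set (JZero N)) := by
  obtain ⟨m, hm, h⟩ := exists_nsmul_mem_eisSub_tor N D hD
  refine ⟨m, hm, fun l hl r P x hx => ?_⟩
  haveI : NeZero (l ^ r) := ⟨pow_ne_zero r hl.ne_zero⟩
  obtain ⟨ε, s, k, -, -, hεG, hεfix, -, -, -⟩ := exists_idem P (l ^ r)
  have h1 := smul_mem_eisSub (D := D) ε (G := {y : JZero N | l ^ r • y = 0})
    (G' := (GP P (l ^ r) : Set (JZero N))) (fun y hy => hεG y hy) (h l hl r x hx.1)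
  rwa [smul_comm ε m x, hεfix x hx] at h1

/-- consequence: an additive map on `G_P[l^r]` with the Eisenstein relation is killed by `m`. -/
theorem hom_nsmul_eq_zero {m l r : ℕ} {P : Ideal (R N D)}
    (h : ∀ x : JZero N, x ∈ GP P (l ^ r) → m • x ∈ eisSub (D := D) (GP P (l ^ r) : Set (JZero N)))
    {X : Type*} [AddCommGroup X] (f : ↥(GP P (l ^ r)) →+ X)
    (hf : ∀ (q : Nat.Primes) (hq : ¬ (q : ℕ) ∣ N * D) (y : ↥(GP P (l ^ r))),
      f (Tq N D q hq • y) = ((q : ℕ) + 1) • f y) (y : ↥(GP P (l ^ r))) : m • f y = 0 := by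
  -- `f` vanishes on `eisSub ∩ GP`
  have key : ∀ w : JZero N, w ∈ eisSub (D := D) (GP P (l ^ r) : Set (JZero N)) →
      ∃ hw : w ∈ GP P (l ^ r), f ⟨w, hw⟩ = 0 := by
    intro w hw
    induction hw using AddSubgroup.closure_induction with
    | mem z hz =>
      obtain ⟨q, hq, y, hy, rfl⟩ := hz
      have hmem : Tq N D q hq • y - ((q : ℕ) + 1) • y ∈ GP P (l ^ r) :=
        Submodule.sub_mem _ (Submodule.smul_mem _ _ hy) (Submodule.smul_of_tower_mem _ _ hy)
      refine ⟨hmem, ?_⟩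
      have : (⟨Tq N D q hq • y - ((q : ℕ) + 1) • y, hmem⟩ : ↥(GP P (l ^ r))) =
          Tq N D q hq • (⟨y, hy⟩ : ↥(GP P (l ^ r))) - ((q : ℕ) + 1) • (⟨y, hy⟩ : ↥(GP P (l ^ r))) :=
        Subtype.ext (by simp)
      rw [this, map_sub, hf, map_nsmul, sub_self]
    | zero => exact ⟨Submodule.zero_mem _, map_zero f⟩
    | add a b _ _ ha hb =>
      obtain ⟨ha1, ha2⟩ := ha
      obtain ⟨hb1, hb2⟩ := hb
      refine ⟨Submodule.add_mem _ ha1 hb1, ?_⟩
      have : (⟨a + b, Submodule.add_mem _ ha1 hb1⟩ : ↥(GP P (l ^ r))) = ⟨a, ha1⟩ + ⟨b, hb1⟩ := rfl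
      rw [this, map_add, ha2, hb2, add_zero]
    | neg a _ ha =>
      obtain ⟨ha1, ha2⟩ := ha
      refine ⟨Submodule.neg_mem _ ha1, ?_⟩
      have : (⟨-a, Submodule.neg_mem _ ha1⟩ : ↥(GP P (l ^ r))) = -⟨a, ha1⟩ := rfl
      rw [this, map_neg, ha2, neg_zero]
  obtain ⟨hw, h0⟩ := key _ (h y.1 y.2)
  rw [← map_nsmul]
  have : m • y = ⟨m • (y : JZero N), hw⟩ := Subtype.ext (by simp)
  rw [this, h0]

end

end Fermat.Agent.MZ.HECKE.EisFin5
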