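/-
Programme MZ (S15), chapter HECKE (helper5): **the `G_ℚ`-invariants of the Cartier dual of `G_r = G_P[l^r]`
are bounded independently of `r`** (the `H⁰(G_r^*)` bound of D5, MASTER v2).

A `G_ℚ`-equivariant character `f : G_r → μ(ℚ̄)` satisfies the Eisenstein relation `f (T_q x) = (q + 1) f x`
for all `q ∤ N D` (`l ∣ D`): by Eichler–Shimura (`IdemD5.frob_quad`) `σ² x − T_q σ x + q x = 0` for a Frobenius
`σ` at `q`, and `σ` acts on the roots of unity of order prime to `q` by `ζ ↦ ζ ^ q`.  By EIS-FIN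
(`EisFin5.hom_nsmul_eq_zero`) such an `f` is killed by the integer `m` of `EisFin5.exists_nsmul_mem_eisSub`;
the characters of `G_r` killed by `m` are at most `#G_r[m] ≤ #J₀(N)[m]`.

* `frob_rootOfUnity` : `σ ζ = ζ ^ q`;
* `card_hom_killed_le` : `#{f : M → ℚ̄ˣ | m f = 0} ≤ #M[m]` (finite abelian `M`);
* `eis_of_invariant`, `nsmul_invariant_eq_zero`;
* **`card_invariants_dual_le`**, **`exists_card_invariants_dual_le`**.
-/
import Mathlib
import Fermat.Agent.MZ.HECKE.EisFin5
import Fermat.Agent.MZ.DUAL.DualRep3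
import Fermat.Agent.MZ.ORDL.OrdPeuInst6
import Fermat.Agent.ES.J.CycloChar8
import Fermat.Agent.ES.FROB.FrobFacts12
import Fermat.Agent.Lib.FrobeniusExists

set_option autoImplicit false
set_option linter.unusedSectionVars false
set_option linter.style.longLine false
set_option linter.style.haveILetI false

namespace Fermat.Agent.MZ.HECKE.EisDual5

open AlgebraicCurve ModularCurve
open Fermat.Agent.MZ.HECKE.RingD5 Fermat.Agent.MZ.HECKE.IdemD5 Fermat.Agent.MZ.HECKE.EisFin5
open Fermat.Agent.MZ.DUAL.DualRep3 Fermat.Agent.MZ.ORDL.OrdPeuInst6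
open Fermat.Agent.MP.HECKE.EsComm5

local notation "Qb" => AlgebraicClosure ℚ
local notation "GQ" => (AlgebraicClosure ℚ ≃ₐ[ℚ] AlgebraicClosure ℚ)

noncomputable section

/-! ### Frobenius on roots of unity -/

/-- a Frobenius at `q` raises the roots of unity of order prime to `q` to the `q`-th power. -/
theorem frob_rootOfUnity {q : ℕ} (hq : q.Prime) {A : ValuationSubring Qb} (hA : A.LiesOverPrime q)
    {σ : GQ} (hσ : A.IsFrobeniusAt σ q) {n : ℕ} (hn : ¬ q ∣ n) {ζ : Qb} (hζ : ζ ^ n = 1) :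
    σ ζ = ζ ^ q := by
  have hn0 : n ≠ 0 := fun h0 => hn (h0 ▸ dvd_zero q)
  have hζ0 : ζ ≠ 0 := by
    rintro rfl
    rw [zero_pow hn0] at hζ
    exact zero_ne_one hζ
  have hζA : ζ ∈ A := Fermat.Agent.ES.J.CycloChar8.mem_of_pow_eq_one hn0 hζ
  have h1 := Fermat.Agent.ES.J.CycloChar8.frob_apply_sub_pow_mem_nonunits hσ hζA
  have hσζ : (σ ζ) ^ n = 1 := by rw [← map_pow, hζ, map_one]
  have hη : (σ ζ * (ζ ^ q)⁻¹) ^ n = 1 := by
    rw [mul_pow, hσζ, inv_pow, ← pow_mul, mul_comm q, pow_mul, hζ, one_pow, inv_one, mul_one]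
  have hvinv : A.valuation ((ζ ^ q)⁻¹) = 1 := by
    rw [map_inv₀, map_pow, Fermat.Agent.ES.J.CycloChar8.valuation_eq_one_of_pow_eq_one hn0 hζ,
      one_pow, inv_one]
  have hη1 : σ ζ * (ζ ^ q)⁻¹ - 1 ∈ A.nonunits := by
    have e : σ ζ * (ζ ^ q)⁻¹ - 1 = (σ ζ - ζ ^ q) * (ζ ^ q)⁻¹ := by
      rw [sub_mul, mul_inv_cancel₀ (pow_ne_zero _ hζ0)]
    rw [e, ValuationSubring.mem_nonunits_iff, map_mul, hvinv, mul_one]
    exact (ValuationSubring.mem_nonunits_iff (A := A)).mp h1
  have h2 := Fermat.Agent.ES.J.CycloChar8.eq_one_of_sub_one_mem_nonunits hq hA hn hη hη1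
  have := congrArg (· * ζ ^ q) h2
  simpa [mul_assoc, inv_mul_cancel₀ (pow_ne_zero q hζ0)] using this

/-! ### counting characters killed by `m` -/

section Count

variable {M : Type} [AddCommGroup M] [Finite M]

/-- `#(M / m M) = #M[m]` for a finite abelian group. -/
theorem card_quot_range_eq_card_ker (m : ℕ) :
    Nat.card (M ⧸ (nsmulAddMonoidHom (α := M) m).range) =
      Nat.card {x : M // m • x = 0} := by
  set φ : M →+ M := nsmulAddMonoidHom (α := M) m with hφ
  have h1 : φ.ker.index * Nat.card φ.ker = Nat.card M := AddSubgroup.index_mul_card _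
  have h2 : φ.range.index * Nat.card φ.range = Nat.card M := AddSubgroup.index_mul_card _
  have h3 : φ.ker.index = Nat.card φ.range := AddSubgroup.index_ker φ
  have hpos : 0 < Nat.card φ.range := Nat.card_pos
  have h4 : φ.range.index = Nat.card φ.ker := by
    have : φ.range.index * Nat.card φ.range = Nat.card φ.ker * Nat.card φ.range := by
      rw [h2, ← h1, h3, mul_comm]
    exact Nat.eq_of_mul_eq_mul_right hpos this
  have h5 : Nat.card φ.ker = Nat.card {x : M // m • x = 0} :=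
    Nat.card_congr (Equiv.subtypeEquivRight fun x => by
      rw [AddMonoidHom.mem_ker, hφ, nsmulAddMonoidHom_apply])
  rw [← h5, ← h4]
  rfl

/-- **`#{f : M → ℚ̄ˣ | m f = 0} ≤ #M[m]`.** -/
theorem card_hom_killed_le (m : ℕ) :
    Nat.card {f : M →+ Additive Qbˣ // ∀ x, m • f x = 0} ≤ Nat.card {x : M // m • x = 0} := by
  set φ : M →+ M := nsmulAddMonoidHom (α := M) m with hφ
  -- the injection into the characters of `M / m M`
  have hker : ∀ f : {f : M →+ Additive Qbˣ // ∀ x, m • f x = 0}, φ.range ≤ f.1.ker := by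
    rintro ⟨f, hf⟩ x ⟨y, rfl⟩
    rw [AddMonoidHom.mem_ker, hφ, nsmulAddMonoidHom_apply, map_nsmul]
    exact hf y
  let Φ : {f : M →+ Additive Qbˣ // ∀ x, m • f x = 0} → ((M ⧸ φ.range) →+ Additive Qbˣ) :=
    fun f => QuotientAddGroup.lift φ.range f.1 (hker f)
  have hΦ : Function.Injective Φ := by
    intro f g hfg
    apply Subtype.ext
    refine AddMonoidHom.ext fun x => ?_
    have := congrArg (fun ψ : (M ⧸ φ.range) →+ Additive Qbˣ => ψ (QuotientAddGroup.mk x)) hfg
    simpa [Φ] using this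
  haveI : Finite ((M ⧸ φ.range) →+ Additive Qbˣ) := by
    haveI : NeZero (Monoid.exponent (Multiplicative (M ⧸ φ.range))) :=
      ⟨Monoid.exponent_ne_zero_of_finite⟩
    have h := CommGroup.card_monoidHom_of_hasEnoughRootsOfUnity (Multiplicative (M ⧸ φ.range)) Qb
    have hfin : Finite (Multiplicative (M ⧸ φ.range) →* Qbˣ) := by
      apply Nat.finite_of_card_ne_zero
      rw [h]
      exact Nat.card_pos.ne'
    exact Finite.of_equiv _ (AddMonoidHom.toMultiplicativeLeft
      (α := M ⧸ φ.range) (β := Qbˣ)).symm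
  have h1 : Nat.card {f : M →+ Additive Qbˣ // ∀ x, m • f x = 0} ≤
      Nat.card ((M ⧸ φ.range) →+ Additive Qbˣ) := Nat.card_le_card_of_injective Φ hΦ
  have h2 : Nat.card ((M ⧸ φ.range) →+ Additive Qbˣ) = Nat.card (M ⧸ φ.range) := by
    haveI : NeZero (Monoid.exponent (Multiplicative (M ⧸ φ.range))) :=
      ⟨Monoid.exponent_ne_zero_of_finite⟩
    rw [Nat.card_congr (AddMonoidHom.toMultiplicativeLeft (α := M ⧸ φ.range) (β := Qbˣ)),
      CommGroup.card_monoidHom_of_hasEnoughRootsOfUnity (Multiplicative (M ⧸ φ.range)) Qb]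
    exact Nat.card_congr Multiplicative.toAdd
  rw [h2, card_quot_range_eq_card_ker] at h1
  exact h1

end Count

/-! ### the Galois module `G_r` and its equivariant characters -/

variable {N : ℕ} [NeZero N] {D : ℕ} (P : Ideal (R N D)) (l r : ℕ)

/-- `G_r = G_P[l^r]` as an additive subgroup. -/
abbrev Gr : AddSubgroup (JZero N) := (GP P (l ^ r)).toAddSubgroup

theorem Gr_stable : ∀ σ : GQ, ∀ x ∈ Gr P l r, σ • x ∈ Gr P l r := fun σ _ hx => smul_mem_GP σ hx

theorem Gr_killed : ∀ x ∈ Gr P l r, l ^ r • x = 0 := fun _ hx => hx.1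

/-- two coprime integers killing `v` force `v = 0`. -/
theorem eq_zero_of_coprime_nsmul {X : Type*} [AddCommGroup X] {a b : ℕ} (hab : Nat.Coprime a b) {v : X}
    (ha : a • v = 0) (hb : b • v = 0) : v = 0 := by
  have h1 : addOrderOf v ∣ a := addOrderOf_dvd_of_nsmul_eq_zero ha
  have h2 : addOrderOf v ∣ b := addOrderOf_dvd_of_nsmul_eq_zero hb
  have h3 : addOrderOf v ∣ 1 := by
    have := Nat.dvd_gcd h1 h2
    rwa [hab.gcd_eq_one] at this
  exact AddMonoid.addOrderOf_eq_one_iff.mp (Nat.dvd_one.mp h3)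

/-- the algebra behind `eis_of_invariant`. -/
theorem alg_step {X : Type*} [AddCommGroup X] {a n : ℕ} (hcop : Nat.Coprime a n) {u t : X}
    (hu : n • u = 0) (ht : n • t = 0) (h : a • a • u - a • t + a • u = 0) : t = (a + 1) • u := by
  have h2 : a • ((a + 1) • u - t) = 0 := by
    rw [← h, smul_sub, add_smul, one_smul, smul_add]
    abel
  have h3 : n • ((a + 1) • u - t) = 0 := by
    rw [smul_sub, smul_comm, hu, ht, smul_zero, sub_zero]
  exact (sub_eq_zero.mp (eq_zero_of_coprime_nsmul hcop h2 h3)).symm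

variable {P l r}

/-- **an equivariant character of `G_r` satisfies the Eisenstein relation.** -/
theorem eis_of_invariant (hl : l.Prime) (hlD : l ∣ D)
    (hst : ∀ σ : GQ, ∀ x ∈ Gr P l r, σ • x ∈ Gr P l r)
    (f : dualRep (subRep (Gr P l r) hst))
    (hf : f ∈ (dualRep (subRep (Gr P l r) hst)).ρ.invariants)
    (q : Nat.Primes) (hq : ¬ (q : ℕ) ∣ N * D) {y : JZero N} (hy : y ∈ GP P (l ^ r)) :
    (f : subRep (Gr P l r) hst →+ Additive Qbˣ) ⟨Tq N D q hq • y, Submodule.smul_mem _ _ hy⟩ =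
      ((q : ℕ) + 1) • (f : subRep (Gr P l r) hst →+ Additive Qbˣ) ⟨y, hy⟩ := by
  have hn : ∀ x : subRep (Gr P l r) hst, (l ^ r) • x = 0 := fun x => Subtype.ext (by
    rw [AddSubgroup.coe_nsmul]
    exact Gr_killed P l r x.1 x.2)
  have hqn : ¬ (q : ℕ) ∣ l ^ r := by
    intro h
    have h1 : (q : ℕ) ∣ l := q.2.dvd_of_dvd_pow h
    have h2 : (q : ℕ) = l := (Nat.prime_dvd_prime_iff_eq q.2 hl).mp h1
    exact hq (Dvd.dvd.mul_left (h2 ▸ hlD) N)
  obtain ⟨A, hA⟩ := Fermat.Agent.Lib.FrobeniusExists.exists_valuationSubring_liesOverPrime q q.2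
  obtain ⟨σ, hσ⟩ := Fermat.Agent.ES.FROB.FrobFacts12.exists_isFrobeniusAt_of q q.2 A hA
  -- (K1) `f (σ z) = q f z`
  have K1 : ∀ z : subRep (Gr P l r) hst,
      (f : subRep (Gr P l r) hst →+ Additive Qbˣ) ((subRep (Gr P l r) hst).ρ σ z) =
        (q : ℕ) • (f : subRep (Gr P l r) hst →+ Additive Qbˣ) z := by
    intro z
    apply Additive.toMul.injective
    rw [(mem_invariants (subRep (Gr P l r) hst) f).mp hf σ z, toMul_nsmul]
    apply Units.ext
    rw [Units.val_pow_eq_pow_val]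
    exact frob_rootOfUnity q.2 hA hσ hqn (toMul_pow_eq_one (subRep (Gr P l r) hst) hn f z)
  -- values are killed by `l ^ r`
  have hkill : ∀ z : subRep (Gr P l r) hst,
      (l ^ r) • (f : subRep (Gr P l r) hst →+ Additive Qbˣ) z = 0 :=
    fun z => by rw [← map_nsmul, hn, map_zero]
  -- the elements
  have hquad : (subRep (Gr P l r) hst).ρ σ ((subRep (Gr P l r) hst).ρ σ
        (⟨y, hy⟩ : subRep (Gr P l r) hst)) -
      (subRep (Gr P l r) hst).ρ σ
        (⟨Tq N D q hq • y, Submodule.smul_mem _ _ hy⟩ : subRep (Gr P l r) hst) +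
      (q : ℕ) • (⟨y, hy⟩ : subRep (Gr P l r) hst) = 0 := by
    apply Subtype.ext
    have h := frob_quad (D := D) q.2 hq hA hqn hy.1 hσ
    rw [smul_galois] at h
    rw [AddSubgroup.coe_add, AddSubgroup.coe_sub, AddSubgroup.coe_nsmul]
    exact h
  have h1 := congrArg (f : subRep (Gr P l r) hst →+ Additive Qbˣ) hquad
  rw [map_add, map_sub, map_nsmul, map_zero, K1, K1, K1] at h1
  have hcop : Nat.Coprime (q : ℕ) (l ^ r) := (Nat.Prime.coprime_iff_not_dvd q.2).mpr hqn
  exact alg_step hcop (hkill _) (hkill _) h1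

/-- the identity map `↥(GP P (l^r)) → ↥(Gr P l r)`. -/
def toGr (P : Ideal (R N D)) (l r : ℕ) : ↥(GP P (l ^ r)) →+ ↥(Gr P l r) where
  toFun y := ⟨y.1, y.2⟩
  map_zero' := rfl
  map_add' _ _ := rfl

/-- **an equivariant character of `G_r` is killed by the integer `m` of EIS-FIN.** -/
theorem nsmul_invariant_eq_zero (hl : l.Prime) (hlD : l ∣ D) {m : ℕ}
    (h : ∀ x : JZero N, x ∈ GP P (l ^ r) → m • x ∈ eisSub (D := D) (GP P (l ^ r) : Set (JZero N)))
    (hst : ∀ σ : GQ, ∀ x ∈ Gr P l r, σ • x ∈ Gr P l r)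
    (f : dualRep (subRep (Gr P l r) hst))
    (hf : f ∈ (dualRep (subRep (Gr P l r) hst)).ρ.invariants) (x : subRep (Gr P l r) hst) :
    m • (f : subRep (Gr P l r) hst →+ Additive Qbˣ) x = 0 := by
  have h1 := hom_nsmul_eq_zero (D := D) h
    ((f : subRep (Gr P l r) hst →+ Additive Qbˣ).comp (toGr P l r))
    (fun q hq y => eis_of_invariant hl hlD hst f hf q hq y.2) ⟨x.1, x.2⟩
  exact h1

/-- **the bound**: `#(G_r^*)^{G_ℚ} ≤ #J₀(N)[m]`. -/
theorem card_invariants_dual_le (hl : l.Prime) (hlD : l ∣ D) {m : ℕ} (hm : 0 < m)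
    (h : ∀ x : JZero N, x ∈ GP P (l ^ r) → m • x ∈ eisSub (D := D) (GP P (l ^ r) : Set (JZero N)))
    (hst : ∀ σ : GQ, ∀ x ∈ Gr P l r, σ • x ∈ Gr P l r) :
    Nat.card ↥((dualRep (subRep (Gr P l r) hst)).ρ.invariants) ≤
      Nat.card {x : JZero N // m • x = 0} := by
  haveI : Finite (subRep (Gr P l r) hst) :=
    finite_subRep (Gr P l r) hst (pow_pos hl.pos r) (Gr_killed P l r)
  haveI : Finite (dualRep (subRep (Gr P l r) hst)) := finite_dualRep _
  haveI : NeZero m := ⟨hm.ne'⟩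
  haveI : Finite {x : JZero N // m • x = 0} :=
    (Fermat.Agent.ES.KUM.FiniteTorsion15.finite_setOf_nsmul_eq_zero N m).to_subtype
  -- step 1
  have s1 : Nat.card ↥((dualRep (subRep (Gr P l r) hst)).ρ.invariants) ≤
      Nat.card {g : subRep (Gr P l r) hst →+ Additive Qbˣ // ∀ x, m • g x = 0} := by
    haveI : Finite {g : subRep (Gr P l r) hst →+ Additive Qbˣ // ∀ x, m • g x = 0} :=
      Finite.of_injective (fun g => (g.1 : dualRep (subRep (Gr P l r) hst)))
        (fun a b hab => Subtype.ext hab)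
    refine Nat.card_le_card_of_injective
      (fun f => (⟨(f.1 : subRep (Gr P l r) hst →+ Additive Qbˣ),
        fun x => nsmul_invariant_eq_zero hl hlD h hst f.1 f.2 x⟩ :
        {g : subRep (Gr P l r) hst →+ Additive Qbˣ // ∀ x, m • g x = 0})) ?_
    intro a b hab
    have h1 := congrArg Subtype.val hab
    exact Subtype.ext h1
  -- step 2
  have s2 := card_hom_killed_le (M := subRep (Gr P l r) hst) m
  -- step 3
  have s3 : Nat.card {x : subRep (Gr P l r) hst // m • x = 0} ≤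
      Nat.card {x : JZero N // m • x = 0} := by
    refine Nat.card_le_card_of_injective
      (fun x => (⟨((x.1 : ↥(Gr P l r)) : JZero N), by
        have h1 := congrArg (fun z : ↥(Gr P l r) => (z : JZero N)) x.2
        rwa [AddSubgroup.coe_nsmul] at h1⟩ : {x : JZero N // m • x = 0})) ?_
    intro a b hab
    have h1 := congrArg Subtype.val hab
    exact Subtype.ext (Subtype.ext h1)
  exact s1.trans (s2.trans s3)

/-- **`#(G_r^*)^{G_ℚ}` is bounded independently of `r` (and of `P`).** -/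
theorem exists_card_invariants_dual_le (N : ℕ) [NeZero N] (D : ℕ) (hD : D ≠ 0) :
    ∃ B : ℕ, ∀ (l : ℕ) (_ : l.Prime) (_ : l ∣ D) (r : ℕ) (P : Ideal (R N D))
      (hst : ∀ σ : GQ, ∀ x ∈ Gr P l r, σ • x ∈ Gr P l r),
      Nat.card ↥((dualRep (subRep (Gr P l r) hst)).ρ.invariants) ≤ B := by
  obtain ⟨m, hm, h⟩ := exists_nsmul_mem_eisSub N D hD
  exact ⟨Nat.card {x : JZero N // m • x = 0}, fun l hl hlD r P hst =>
    card_invariants_dual_le hl hlD hm (h l hl r P) hst⟩

end

end Fermat.Agent.MZ.HECKE.EisDual5
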