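/-
Programme MZ (S15), chapter HECKE (helper5): **`|X| ≤ |X^I|²` for a unipotent tame action** (pure algebra,
Mathlib only).

`X` a finite abelian group killed by `m`, `p ∤ m`; a group `Γ` acts on `X` (`DistribMulAction`);
`I ≤ Γ` a subgroup every element of which is unipotent of level 2 (`(τ - 1)² = 0`), and such that modulo a
subgroup `W` whose elements act with `p`-power order the image of `I` is generated by one element `g₀`
(tame inertia is procyclic).  Then `W` acts trivially, `X^I = ker (g₀ - 1)` and `|X| ≤ |X^I|²`.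
-/
import Mathlib

set_option autoImplicit false

namespace Fermat.Agent.MZ.HECKE.UnipAbs5

variable {X : Type*} [AddCommGroup X] {Γ : Type*} [Group Γ] [DistribMulAction Γ X]

/-- powers of a unipotent element of level 2. -/
theorem pow_smul_of_unip (f : Γ) (hf : ∀ x : X, f • f • x + x = f • x + f • x) (k : ℕ) (x : X) :
    (f ^ k) • x = x + k • (f • x - x) := by
  induction k generalizing x with
  | zero => simp
  | succ k ih =>
    rw [pow_succ, mul_smul, ih (f • x)]
    have h := hf x
    have h2 : f • f • x - f • x = f • x - x := by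
      rw [sub_eq_sub_iff_add_eq_add]
      exact h
    rw [h2, succ_nsmul]
    abel

/-- a unipotent element acting with `p`-power order on a group killed by `m`, `p ∤ m`, acts trivially. -/
theorem smul_eq_of_unip_of_pow {p : ℕ} (hp : p.Prime) {m : ℕ} (hpm : ¬ p ∣ m)
    (hm : ∀ x : X, m • x = 0) (f : Γ) (hf : ∀ x : X, f • f • x + x = f • x + f • x) {n : ℕ}
    (hn : ∀ x : X, (f ^ (p ^ n)) • x = x) (x : X) : f • x = x := by
  have hcop : Nat.Coprime (p ^ n) m :=
    Nat.Coprime.pow_left n ((Nat.Prime.coprime_iff_not_dvd hp).2 hpm)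
  -- `p^n • (f x - x) = 0` and `m • (f x - x) = 0`
  have h1 : (p ^ n) • (f • x - x) = 0 := by
    have := hn x
    rw [pow_smul_of_unip f hf] at this
    exact left_eq_add.mp this.symm
  have h2 : m • (f • x - x) = 0 := hm _
  obtain ⟨a, b, hab⟩ : ∃ a b : ℤ, a * (p ^ n : ℕ) + b * m = 1 := by
    have := Nat.Coprime.isCoprime hcop
    obtain ⟨a, b, h⟩ := this
    exact ⟨a, b, by exact_mod_cast h⟩
  have h3 : (1 : ℤ) • (f • x - x) = 0 := by
    rw [← hab, add_smul, mul_smul, mul_smul, natCast_zsmul, natCast_zsmul, h1, h2, smul_zero,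
      smul_zero, add_zero]
  rw [one_smul] at h3
  exact sub_eq_zero.mp h3

/-- `|X| ≤ |ker (f - 1)|²` for a unipotent element of level 2 acting on a finite group. -/
theorem card_le_sq_of_unip [Finite X] (f : Γ) (hf : ∀ x : X, f • f • x + x = f • x + f • x) :
    Nat.card X ≤ Nat.card {x : X // f • x = x} ^ 2 := by
  classical
  let d : X →+ X := DistribSMul.toAddMonoidHom X f - AddMonoidHom.id X
  have hd : ∀ x, d x = f • x - x := fun x => rfl
  have hker : ∀ x, x ∈ d.ker ↔ f • x = x := by
    intro x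
    rw [AddMonoidHom.mem_ker, hd, sub_eq_zero]
  have hrange : d.range ≤ d.ker := by
    rintro _ ⟨x, rfl⟩
    rw [AddMonoidHom.mem_ker, hd, hd, smul_sub]
    have h := hf x
    have h2 : f • f • x - f • x = f • x - x := by
      rw [sub_eq_sub_iff_add_eq_add]
      exact h
    rw [h2, sub_self]
  have hcard : Nat.card X = Nat.card d.ker * Nat.card d.range := by
    have h1 := AddSubgroup.card_eq_card_quotient_mul_card_addSubgroup d.ker
    have h2 : Nat.card (X ⧸ d.ker) = Nat.card d.range :=
      Nat.card_congr (QuotientAddGroup.quotientKerEquivRange d).toEquiv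
    rw [h1, h2, mul_comm]
  have hle : Nat.card d.range ≤ Nat.card d.ker :=
    Nat.card_le_card_of_injective (AddSubgroup.inclusion hrange) (AddSubgroup.inclusion_injective hrange)
  have heq : Nat.card d.ker = Nat.card {x : X // f • x = x} :=
    Nat.card_congr (Equiv.subtypeEquivRight hker)
  rw [hcard, ← heq, sq]
  exact Nat.mul_le_mul_left _ hle

/-- **`|X| ≤ |X^I|²`** for a unipotent action with procyclic tame quotient. -/
theorem card_le_sq_fixed [Finite X] (I : Subgroup Γ)
    {p : ℕ} (hp : p.Prime) {m : ℕ} (hpm : ¬ p ∣ m) (hm : ∀ x : X, m • x = 0)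
    (hunip : ∀ τ ∈ I, ∀ x : X, τ • τ • x + x = τ • x + τ • x)
    (g₀ : Γ) (hg₀ : g₀ ∈ I) (W : Subgroup Γ) (hWI : W ≤ I)
    (hW : ∀ π ∈ W, ∃ n : ℕ, ∀ x : X, (π ^ (p ^ n)) • x = x)
    (hgen : ∀ σ ∈ I, ∃ j : ℕ, ∃ π ∈ W, ∀ x : X, σ • x = (g₀ ^ j) • π • x) :
    Nat.card X ≤ Nat.card {x : X // ∀ τ ∈ I, τ • x = x} ^ 2 := by
  have hWtriv : ∀ π ∈ W, ∀ x : X, π • x = x := by
    intro π hπ x
    obtain ⟨n, hn⟩ := hW π hπ
    exact smul_eq_of_unip_of_pow hp hpm hm π (hunip π (hWI hπ)) hn x
  have hfix : ∀ x : X, (∀ τ ∈ I, τ • x = x) ↔ g₀ • x = x := by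
    intro x
    constructor
    · intro h
      exact h g₀ hg₀
    · intro h τ hτ
      obtain ⟨j, π, hπ, hτeq⟩ := hgen τ hτ
      rw [hτeq, hWtriv π hπ]
      have : ∀ j : ℕ, (g₀ ^ j) • x = x := by
        intro j
        induction j with
        | zero => simp
        | succ j ih => rw [pow_succ, mul_smul, h, ih]
      exact this j
  have h1 := card_le_sq_of_unip (X := X) g₀ (hunip g₀ hg₀)
  have h2 : Nat.card {x : X // ∀ τ ∈ I, τ • x = x} = Nat.card {x : X // g₀ • x = x} :=
    Nat.card_congr (Equiv.subtypeEquivRight hfix)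
  rw [h2]
  exact h1

end Fermat.Agent.MZ.HECKE.UnipAbs5
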