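/-
Programme MZ (S15), chapter HECKE (helper5): **the inertia count at a prime `p ∥ N`**:
for a finite Galois-stable subgroup `G ⊆ J₀(N)[m]`, `p ∤ m`,

  `|G| ≤ |G^{I_p}|²`      (`card_le_sq_inertia`)

in the local vocabulary of `TW/LOC/Defs2` (`Gq p`, `Iq p`, `rq p`).  Inputs: unipotence `(τ - 1)² = 0` of
inertia at `p ∥ N` on prime-to-`p` torsion (`IfaceN4.InertiaTors`, the S34 chain) and the procyclicity of
tame inertia (`TW/FLAT/TameGen4.exists_tame_gen`); abstract count `UnipAbs5.card_le_sq_fixed`.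
-/
import Mathlib
import Fermat.Agent.MZ.HECKE.UnipAbs5
import Fermat.Agent.MP.HECKE.EsComm5
import Fermat.Agent.ES.N34.IfaceN4
import Fermat.Agent.ES.N34.TorsionInertia12
import Fermat.Agent.ES.N34.LvlN17
import Fermat.Agent.ES.N34.DescN1
import Fermat.Agent.ES.N34.NumN13
import Fermat.Agent.ES.N34.ModelEnd4
import Fermat.Agent.TW.FLAT.TameGen4
import Fermat.Agent.ES.GAL.OpenStab12
import Fermat.Agent.ES.KUM.FiniteTorsion15
import Fermat.Agent.FF.BASE.Place2

set_option autoImplicit false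
set_option linter.unusedSectionVars false
set_option linter.style.longLine false
set_option linter.style.haveILetI false

namespace Fermat.Agent.MZ.HECKE.Inertia5

open AlgebraicCurve ModularCurve
open Fermat.Agent.TW.LOC.Defs2 Fermat.Agent.PT.GLUE.Objects21
open Fermat.Agent.MP.HECKE.EsComm5

local notation "GQ" => (AlgebraicClosure ℚ ≃ₐ[ℚ] AlgebraicClosure ℚ)

noncomputable section

/-- **NUM** of the S34 chain (as in `Agent/S34`). -/
theorem numStep5 : Fermat.Agent.ES.N34.IfaceN4.NumStep :=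
  Fermat.Agent.ES.N34.NumN13.numStep_of_model
    (fun q M' _ _ A hq hqM h2 h4 hA =>
      Fermat.Agent.ES.N34.ModelEnd4.modelInput_four q M' A hq hqM h2 h4 hA)
    (fun M' _ A h2 h9 hA =>
      Fermat.Agent.ES.N34.ModelEnd4.modelInput_nine M' A h2 h9 hA)

/-- **unipotence of inertia at `q ∥ N` on the prime-to-`q` torsion of `J₀(N)`** (the S34 chain). -/
theorem inertiaTors : Fermat.Agent.ES.N34.IfaceN4.InertiaTors :=
  Fermat.Agent.ES.N34.IfaceN4.inertiaTors_of_chain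
    Fermat.Agent.ES.N34.TorsionInertia12.topStep
    Fermat.Agent.ES.N34.LvlN17.hlvl
    Fermat.Agent.ES.N34.DescN1.descStep_chain
    numStep5

variable {N : ℕ} [NeZero N] {p : ℕ} [Fact p.Prime]

/-- unipotence in the local vocabulary. -/
theorem unip_local (hpN : p ∣ N) (hp2 : ¬ p ^ 2 ∣ N) {m : ℕ} (hpm : ¬ p ∣ m) {τ : Gq p}
    (hτ : τ ∈ Iq p) {y : JZero N} (hy : m • y = 0) :
    rq p τ • rq p τ • y + y = rq p τ • y + rq p τ • y :=
  inertiaTors N p (Fact.out) hpN hp2 (padicPlace p) (Fermat.Agent.FF.BASE.Place2.liesOverPrime p)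
    (rq p τ) (rq_mem_inertia p hτ) m hpm y hy

/-- the inertia invariants of a subgroup. -/
def fixI (p : ℕ) [Fact p.Prime] (G : AddSubgroup (JZero N)) : AddSubgroup (JZero N) where
  carrier := {x | x ∈ G ∧ ∀ τ ∈ Iq p, rq p τ • x = x}
  add_mem' := by
    rintro a b ⟨ha, ha'⟩ ⟨hb, hb'⟩
    refine ⟨G.add_mem ha hb, fun τ hτ => ?_⟩
    rw [gal_smul_add, ha' τ hτ, hb' τ hτ]
  zero_mem' := ⟨G.zero_mem, fun τ _ => gal_smul_zero _⟩
  neg_mem' := by
    rintro a ⟨ha, ha'⟩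
    refine ⟨G.neg_mem ha, fun τ hτ => ?_⟩
    rw [gal_smul_neg, ha' τ hτ]

theorem mem_fixI {G : AddSubgroup (JZero N)} {x : JZero N} :
    x ∈ fixI p G ↔ x ∈ G ∧ ∀ τ ∈ Iq p, rq p τ • x = x := Iff.rfl

/-- the local Galois group acts on a Galois-stable subgroup. -/
@[instance_reducible]
def locAct (G : AddSubgroup (JZero N)) (hG : ∀ σ : GQ, ∀ x ∈ G, σ • x ∈ G) :
    DistribMulAction (Gq p) ↥G where
  smul τ x := ⟨rq p τ • (x : JZero N), hG _ _ x.2⟩
  one_smul x := Subtype.ext (by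
    show rq p 1 • (x : JZero N) = x
    rw [map_one, one_smul])
  mul_smul a b x := Subtype.ext (by
    show rq p (a * b) • (x : JZero N) = rq p a • rq p b • (x : JZero N)
    rw [map_mul, mul_smul])
  smul_zero a := Subtype.ext (by
    show rq p a • ((0 : ↥G) : JZero N) = ((0 : ↥G) : JZero N)
    rw [AddSubgroup.coe_zero, gal_smul_zero])
  smul_add a x y := Subtype.ext (by
    show rq p a • ((x + y : ↥G) : JZero N) = rq p a • (x : JZero N) + rq p a • (y : JZero N)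
    rw [AddSubgroup.coe_add, gal_smul_add])

/-- **`|G| ≤ |G^{I_p}|²`** for a Galois-stable subgroup of `J₀(N)[m]`, `p ∥ N`, `p ∤ m`. -/
theorem card_le_sq_inertia (hpN : p ∣ N) (hp2 : ¬ p ^ 2 ∣ N) {m : ℕ} (hm : 0 < m) (hpm : ¬ p ∣ m)
    (G : AddSubgroup (JZero N)) (hGm : ∀ x ∈ G, m • x = 0)
    (hG : ∀ σ : GQ, ∀ x ∈ G, σ • x ∈ G) :
    Nat.card ↥G ≤ Nat.card ↥(fixI p G) ^ 2 := by
  classical
  haveI : NeZero m := ⟨hm.ne'⟩
  have hfinset : (G : Set (JZero N)).Finite :=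
    (Fermat.Agent.ES.KUM.FiniteTorsion15.finite_setOf_nsmul_eq_zero N m).subset fun x hx => hGm x hx
  haveI : Finite ↥G := hfinset.to_subtype
  letI : DistribMulAction (Gq p) ↥G := locAct G hG
  have hsmul : ∀ (τ : Gq p) (x : ↥G), ((τ • x : ↥G) : JZero N) = rq p τ • (x : JZero N) :=
    fun _ _ => rfl
  -- the level condition
  let g : Gq p →* Equiv.Perm ↥G := MulAction.toPermHom (Gq p) ↥G
  have hg : ∀ (τ : Gq p) (x : ↥G), g τ x = τ • x := fun _ _ => rfl
  have hlev : ∃ U ∈ (levelLoc p).sets, U ≤ g.ker := by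
    obtain ⟨L, hL, H⟩ := Fermat.Agent.ES.GAL.OpenStab12.hasLevel_finite N (G : Set (JZero N)) hfinset
    refine ⟨L.fixingSubgroup.comap (rq p), ⟨L.fixingSubgroup, ⟨L, hL, rfl⟩, rfl⟩, fun τ hτ => ?_⟩
    rw [MonoidHom.mem_ker]
    ext x
    rw [hg, Equiv.Perm.coe_one, id_eq, hsmul]
    exact H (rq p τ) (fun a ha => (IntermediateField.mem_fixingSubgroup_iff _ _).1 hτ a ha) _ x.2
  obtain ⟨g₀, hg₀, W, hWI, -, hW, hgen, -⟩ :=
    Fermat.Agent.TW.FLAT.TameGen4.exists_tame_gen g hlev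
  have key := UnipAbs5.card_le_sq_fixed (X := ↥G) (Γ := Gq p) (Iq p) (Fact.out : p.Prime) hpm
    (fun x => Subtype.ext (by rw [AddSubgroup.coe_nsmul, hGm _ x.2]; rfl))
    (fun τ hτ x => Subtype.ext (by
      show rq p τ • rq p τ • (x : JZero N) + (x : JZero N)
        = rq p τ • (x : JZero N) + rq p τ • (x : JZero N)
      exact unip_local hpN hp2 hpm hτ (hGm _ x.2)))
    g₀ hg₀ W hWI
    (fun π hπ => by
      obtain ⟨n, hn⟩ := hW π hπ
      refine ⟨n, fun x => ?_⟩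
      rw [← map_pow] at hn
      have := DFunLike.congr_fun hn x
      rwa [hg, Equiv.Perm.coe_one, id_eq] at this)
    (fun σ hσ => by
      obtain ⟨j, π, hπ, h⟩ := hgen σ hσ
      refine ⟨j, π, hπ, fun x => ?_⟩
      rw [← map_pow, ← map_mul] at h
      have := DFunLike.congr_fun h x
      rwa [hg, hg, mul_smul] at this)
  -- identify the fixed points
  have hcard : Nat.card {x : ↥G // ∀ τ ∈ Iq p, τ • x = x} = Nat.card ↥(fixI p G) := by
    refine Nat.card_congr ⟨fun x => ⟨(x.1 : JZero N), x.1.2, fun τ hτ => ?_⟩,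
      fun y => ⟨⟨(y : JZero N), y.2.1⟩, fun τ hτ => Subtype.ext ?_⟩, fun x => rfl, fun y => rfl⟩
    · have := congrArg Subtype.val (x.2 τ hτ)
      rwa [hsmul] at this
    · rw [hsmul]
      exact y.2.2 τ hτ
  rw [← hcard]
  exact key

end

end Fermat.Agent.MZ.HECKE.Inertia5
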