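/-
Programme MZ (S15), chapter HECKE (helper5): **the `P`-primary part `G_P[m]` of `J₀(N)[m]` and its
idempotent**.

* `torSub m : Submodule (R N) (JZero N)` = `J₀(N)[m]`, finite;
* `GP P m : Submodule (R N) (JZero N)` = `{x | m • x = 0 ∧ ∃ k, P^k x = 0}` (intrinsic; `G_r := GP P (ℓ^r)`),
  Galois-stable (`smul_mem_GP`), finite;
* `exists_idem P m` : `ε, s ≡ 1 mod P` (hence `∉ P` for `P` proper, `eps_not_mem`), `ε J[m] ⊆ GP`, `ε = 1` on
  `GP`, `s (x - ε x) = 0`, and a uniform `k` with `P^k GP = 0`;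
* the `P`-adic filtration `Yk P m k := P^k • GP P m` for CONST (`Yk_zero`, `exists_Yk_eq_bot`, `Yk_antitone`,
  `smul_mem_Yk` (Galois), `smul_mem_Yk_succ`);
* `frob_quad` : `σ²x − T_q σx + q x = 0` on `J₀(N)[m]` for a Frobenius `σ` at `q ∤ N m` (no hypothesis).
-/
import Mathlib
import Fermat.Agent.MZ.HECKE.Ring5
import Fermat.Agent.MZ.HECKE.IdemAbs5
import Fermat.Agent.MP.HECKE.EsComm5
import Fermat.Agent.ES.KUM.FiniteTorsion15

set_option autoImplicit false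
set_option linter.unusedSectionVars false
set_option linter.style.longLine false
set_option linter.style.haveILetI false

namespace Fermat.Agent.MZ.HECKE.Idem5

open AlgebraicCurve ModularCurve
open Fermat.Agent.MZ.HECKE.Ring5 Fermat.Agent.MZ.HECKE.IdemAbs5
open Fermat.Agent.MP.HECKE.EsComm5

local notation "GQ" => (AlgebraicClosure ℚ ≃ₐ[ℚ] AlgebraicClosure ℚ)

noncomputable section

variable {N : ℕ} [NeZero N]

/-- `J₀(N)[m]` as a submodule over the Hecke ring. -/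
def torSub (m : ℕ) : Submodule (R N) (JZero N) where
  carrier := {x | m • x = 0}
  add_mem' := by
    intro a b ha hb
    simp only [Set.mem_setOf_eq] at ha hb ⊢
    rw [nsmul_add, ha, hb, add_zero]
  zero_mem' := by simp
  smul_mem' := by
    intro t x hx
    exact smul_torsion t m hx

theorem mem_torSub {m : ℕ} {x : JZero N} : x ∈ torSub (N := N) m ↔ m • x = 0 := Iff.rfl

instance finite_torSub (m : ℕ) [NeZero m] : Finite ↥(torSub (N := N) m) :=
  (Fermat.Agent.ES.KUM.FiniteTorsion15.finite_setOf_nsmul_eq_zero N m).to_subtype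

/-- **the `P`-primary part of `J₀(N)[m]`.** -/
def GP (P : Ideal (R N)) (m : ℕ) : Submodule (R N) (JZero N) where
  carrier := {x | m • x = 0 ∧ ∃ k : ℕ, ∀ t ∈ P ^ k, t • x = 0}
  add_mem' := by
    rintro a b ⟨ha, ka, hka⟩ ⟨hb, kb, hkb⟩
    refine ⟨by rw [nsmul_add, ha, hb, add_zero], max ka kb, fun t ht => ?_⟩
    rw [smul_add, hka t (Ideal.pow_le_pow_right (le_max_left ka kb) ht),
      hkb t (Ideal.pow_le_pow_right (le_max_right ka kb) ht), add_zero]
  zero_mem' := ⟨by simp, 0, fun t _ => smul_zero t⟩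
  smul_mem' := by
    rintro c x ⟨hx, k, hk⟩
    refine ⟨smul_torsion c m hx, k, fun t ht => ?_⟩
    rw [smul_comm, hk t ht, smul_zero]

theorem mem_GP {P : Ideal (R N)} {m : ℕ} {x : JZero N} :
    x ∈ GP P m ↔ m • x = 0 ∧ ∃ k : ℕ, ∀ t ∈ P ^ k, t • x = 0 := Iff.rfl

theorem GP_le_torSub (P : Ideal (R N)) (m : ℕ) : GP P m ≤ torSub m := fun _ hx => hx.1

theorem GP_mono (P : Ideal (R N)) {m m' : ℕ} (h : m ∣ m') : GP P m ≤ GP P m' := by
  rintro x ⟨hx, hk⟩
  obtain ⟨d, rfl⟩ := h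
  refine ⟨?_, hk⟩
  rw [mul_nsmul, hx, smul_zero]

/-- `GP` is Galois-stable. -/
theorem smul_mem_GP {P : Ideal (R N)} {m : ℕ} (σ : GQ) {x : JZero N} (hx : x ∈ GP P m) :
    σ • x ∈ GP P m := by
  obtain ⟨hx, k, hk⟩ := hx
  refine ⟨by rw [← gal_smul_nsmul, hx, gal_smul_zero], k, fun t ht => ?_⟩
  rw [smul_galois, hk t ht, gal_smul_zero]

instance finite_GP (P : Ideal (R N)) (m : ℕ) [NeZero m] : Finite ↥(GP P m) :=
  Finite.of_injective (fun x : ↥(GP P m) => (⟨x.1, GP_le_torSub P m x.2⟩ : ↥(torSub (N := N) m)))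
    (fun a b h => Subtype.ext (by simpa using congrArg (fun z : ↥(torSub (N := N) m) => (z : JZero N)) h))

/-- **the `P`-idempotent on `J₀(N)[m]`.** -/
theorem exists_idem (P : Ideal (R N)) (m : ℕ) [NeZero m] :
    ∃ (ε s : R N) (k : ℕ), ε - 1 ∈ P ∧ s - 1 ∈ P ∧
      (∀ x : JZero N, m • x = 0 → ε • x ∈ GP P m) ∧ (∀ x ∈ GP P m, ε • x = x) ∧
      (∀ x : JZero N, m • x = 0 → s • (x - ε • x) = 0) ∧
      (∀ t ∈ P ^ k, ∀ x ∈ GP P m, t • x = 0) ∧
      (∀ t ∈ P ^ k, ∀ x : JZero N, m • x = 0 → s • t • x = 0) := by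
  obtain ⟨ε, s, k, hε, hs, hid, hs0, hk, hsk⟩ := IdemAbs5.exists_idem (M := ↥(torSub (N := N) m)) P
  -- transport to `JZero N`
  have hid' : ∀ x : JZero N, m • x = 0 → ε • ε • x = ε • x := fun x hx =>
    congrArg Subtype.val (hid ⟨x, hx⟩)
  have hs0' : ∀ x : JZero N, m • x = 0 → s • (x - ε • x) = 0 := fun x hx =>
    congrArg Subtype.val (hs0 ⟨x, hx⟩)
  have hk' : ∀ t ∈ P ^ k, ∀ x : JZero N, m • x = 0 → t • ε • x = 0 := fun t ht x hx =>
    congrArg Subtype.val (hk t ht ⟨x, hx⟩)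
  have hsk' : ∀ t ∈ P ^ k, ∀ x : JZero N, m • x = 0 → s • t • x = 0 := fun t ht x hx =>
    congrArg Subtype.val (hsk t ht ⟨x, hx⟩)
  have hfix : ∀ x ∈ GP P m, ε • x = x := by
    rintro x ⟨hx, k', hk'x⟩
    have h0 : x - ε • x = 0 := by
      refine eq_zero_of_pow_of_unit P hs (k := max k k') (fun t ht => ?_) (hs0' x hx)
      rw [smul_sub, hk'x t (Ideal.pow_le_pow_right (le_max_right k k') ht),
        hk' t (Ideal.pow_le_pow_right (le_max_left k k') ht) x hx, sub_zero]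
    exact (sub_eq_zero.mp h0).symm
  refine ⟨ε, s, k, hε, hs, fun x hx => ⟨smul_torsion ε m hx, k, fun t ht => hk' t ht x hx⟩, hfix,
    hs0', fun t ht x hx => ?_, hsk'⟩
  rw [← hfix x hx]
  exact hk' t ht x hx.1

/-- an element `≡ 1 mod P` is not in a proper ideal `P`. -/
theorem eps_not_mem {P : Ideal (R N)} (hP : P ≠ ⊤) {ε : R N} (hε : ε - 1 ∈ P) : ε ∉ P := by
  intro h
  apply hP
  rw [Ideal.eq_top_iff_one]
  have : (1 : R N) = ε - (ε - 1) := by ring
  rw [this]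
  exact P.sub_mem h hε

/-! ### the `P`-adic filtration of `GP` (for CONST) -/

/-- `Y_k := P^k • G_P[m]`. -/
def Yk (P : Ideal (R N)) (m k : ℕ) : Submodule (R N) (JZero N) := P ^ k • GP P m

theorem Yk_zero (P : Ideal (R N)) (m : ℕ) : Yk P m 0 = GP P m := by
  rw [Yk, pow_zero, Ideal.one_eq_top, Submodule.top_smul]

theorem Yk_antitone (P : Ideal (R N)) (m : ℕ) {k k' : ℕ} (h : k ≤ k') : Yk P m k' ≤ Yk P m k :=
  Submodule.smul_mono_left (Ideal.pow_le_pow_right h)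

theorem Yk_le_GP (P : Ideal (R N)) (m k : ℕ) : Yk P m k ≤ GP P m := by
  rw [← Yk_zero P m]
  exact Yk_antitone P m (Nat.zero_le k)

theorem exists_Yk_eq_bot (P : Ideal (R N)) (m : ℕ) [NeZero m] : ∃ k : ℕ, Yk P m k = ⊥ := by
  obtain ⟨ε, s, k, -, -, -, -, -, hk, -⟩ := exists_idem P m
  refine ⟨k, ?_⟩
  rw [eq_bot_iff, Yk, Submodule.smul_le]
  intro t ht x hx
  rw [hk t ht x hx]
  exact Submodule.zero_mem _

theorem smul_mem_Yk_succ {P : Ideal (R N)} {m k : ℕ} {t : R N} (ht : t ∈ P) {x : JZero N}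
    (hx : x ∈ Yk P m k) : t • x ∈ Yk P m (k + 1) := by
  rw [Yk, pow_succ', Submodule.mul_smul]
  exact Submodule.smul_mem_smul ht hx

/-- the filtration is Galois-stable. -/
theorem smul_mem_Yk {P : Ideal (R N)} {m k : ℕ} (σ : GQ) {x : JZero N} (hx : x ∈ Yk P m k) :
    σ • x ∈ Yk P m k := by
  rw [Yk] at hx ⊢
  refine Submodule.smul_induction_on hx (fun t ht y hy => ?_) (fun y z hy hz => ?_)
  · rw [← smul_galois]
    exact Submodule.smul_mem_smul ht (smul_mem_GP σ hy)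
  · rw [gal_smul_add]
    exact Submodule.add_mem _ hy hz

/-! ### the Frobenius quadratic relation on torsion -/

/-- **`σ² x − T_q (σ x) + q x = 0`** on `J₀(N)[m]`, `σ` a Frobenius at `q ∤ N m`. -/
theorem frob_quad {q : ℕ} (hq : q.Prime) (hqN : ¬ q ∣ N) {A : ValuationSubring (AlgebraicClosure ℚ)}
    (hA : A.LiesOverPrime q) {m : ℕ} (hm : ¬ q ∣ m) {x : JZero N} (hx : m • x = 0)
    {σ : GQ} (hσ : A.IsFrobeniusAt σ q) :
    σ • σ • x - Tq N ⟨q, hq⟩ hqN • (σ • x) + q • x = 0 := by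
  have hσx : m • (σ • x) = 0 := by rw [← gal_smul_nsmul, hx, gal_smul_zero]
  rw [Tq_smul, hecke_eq_frob hq hqN hA hm hσx hσ, gal_inv_smul_smul]
  abel

end

end Fermat.Agent.MZ.HECKE.Idem5
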